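import Fermat.Agent.S18.H138.Charts

/-!
# The level-`9` Hauptmodul in a chart (helper890, S36 cell REG, `q = 2`)

Mathlib + `S18.H138.chart` only.  `F` a field, `R → F`, `B = chart R S` (the elements of `F`
integral over `R[S]`), `j, t ∈ F` with the relation of `Haupt9.jq_mul_t9`:

  `j · t⁹ Q(t) = (t + 9)³ (t³ + 243 Q(t))³`,      `Q(T) = T² + 9 T + 27`.

* `mem_chart_of_rel9`      : `j ∈ B ⟹ t ∈ B`   (`t` is integral over `ℤ[j]`, degree `12`);
* `inv_mem_chart_of_rel9`  : `j ∈ B`, `3⁻¹ ∈ B ⟹ t⁻¹ ∈ B`        (`t ∣ 3³⁰` in `ℤ[j, t]`);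
* `quad_inv_mem_chart_of_rel9` : `j ∈ B`, `3⁻¹ ∈ B ⟹ Q(t)⁻¹ ∈ B`  (`Q(t) ∣ 3¹⁸` in `ℤ[j, t]`);
* `g9_mem_chart`, `g9_inv_mem_chart` : `g₉ = Q(t)⁵ / t³` and its inverse lie in `B`
  (`g₉ = (θ t₉)⁶ / Δ`, `Theta9.theta_t9`): `g₉` is a unit of every chart on which `3` is
  invertible, in particular in residue characteristic `2`.

The same statements for a valuation subring `V` in place of `B` are in `Unit9V` below.
-/

set_option autoImplicit false

noncomputable section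

namespace Fermat.Agent.S36.H890

open Polynomial Fermat.Agent.S18.H138

section Chart

variable {R F : Type*} [CommRing R] [Field F] [Algebra R F]

/-- The chart is integrally closed in `F`. -/
theorem h9_mem_chart_of_isIntegral (S : Set F) {y : F}
    (h : IsIntegral (integralClosure (Algebra.adjoin R S) F) y) : y ∈ chart R S := by
  rw [mem_chart]
  exact isIntegral_trans y h

/-- The monic polynomial `(T + 9)³ (T³ + 243 Q(T))³ - c T⁹ Q(T)` of degree `12`. -/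
def poly9 {A : Type*} [CommRing A] (c : A) : Polynomial A :=
  (X + C 9) ^ 3 * (X ^ 3 + C 243 * (X ^ 2 + C 9 * X + C 27)) ^ 3
    - C c * (X ^ 9 * (X ^ 2 + C 9 * X + C 27))

theorem poly9_monic {A : Type*} [CommRing A] [Nontrivial A] (c : A) : (poly9 c).Monic := by
  rw [poly9]
  monicity!

theorem eval₂_poly9 {A B : Type*} [CommRing A] [CommRing B] (f : A →+* B) (c : A) (t : B) :
    (poly9 c).eval₂ f t = (t + 9) ^ 3 * (t ^ 3 + 243 * (t ^ 2 + 9 * t + 27)) ^ 3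
      - f c * (t ^ 9 * (t ^ 2 + 9 * t + 27)) := by
  simp only [poly9, eval₂_sub, eval₂_mul, eval₂_pow, eval₂_add, eval₂_X, eval₂_C]
  simp only [map_ofNat]

/-- `t` is integral over `ℤ[j]`: `j ∈ B ⟹ t ∈ B`. -/
theorem mem_chart_of_rel9 (S : Set F) {j t : F} (hj : j ∈ chart R S)
    (hrel : j * (t ^ 9 * (t ^ 2 + 9 * t + 27))
      = (t + 9) ^ 3 * (t ^ 3 + 243 * (t ^ 2 + 9 * t + 27)) ^ 3) : t ∈ chart R S := by
  apply h9_mem_chart_of_isIntegral
  refine ⟨poly9 (⟨j, hj⟩ : integralClosure (Algebra.adjoin R S) F), poly9_monic _, ?_⟩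
  rw [eval₂_poly9]
  show (t + 9) ^ 3 * (t ^ 3 + 243 * (t ^ 2 + 9 * t + 27)) ^ 3
      - j * (t ^ 9 * (t ^ 2 + 9 * t + 27)) = 0
  rw [hrel, sub_self]

end Chart

/-! ## Units: generic subring form -/

section Units

variable {F : Type*} [Field F]

/-- `t ∣ 3³⁰` in `ℤ[j, t]`. -/
theorem mul_cofactor_of_rel9 {j t : F}
    (hrel : j * (t ^ 9 * (t ^ 2 + 9 * t + 27))
      = (t + 9) ^ 3 * (t ^ 3 + 243 * (t ^ 2 + 9 * t + 27)) ^ 3) :
    t * (j * (t ^ 8 * (t ^ 2 + 9 * t + 27))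
      - (t ^ 11 + 756 * t ^ 10 + 203634 * t ^ 9 + 22695228 * t ^ 8
        + 930553191 * t ^ 7 + 20241524808 * t ^ 6 + 272112672348 * t ^ 5
        + 2426801943096 * t ^ 4 + 14780479075839 * t ^ 3 + 61381352595204 * t ^ 2
        + 167763144669714 * t + 274521509459532)) = 3 ^ 30 := by
  linear_combination hrel

/-- `Q(t) ∣ 3¹⁸` in `ℤ[j, t]`. -/
theorem quad_mul_cofactor_of_rel9 {j t : F}
    (hrel : j * (t ^ 9 * (t ^ 2 + 9 * t + 27))
      = (t + 9) ^ 3 * (t ^ 3 + 243 * (t ^ 2 + 9 * t + 27)) ^ 3) :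
    (t ^ 2 + 9 * t + 27) * (j * t ^ 9
      - (t ^ 10 + 747 * t ^ 9 + 196884 * t ^ 8 + 20903103 * t ^ 7
        + 737109396 * t ^ 6 + 13043156463 * t ^ 5 + 134822310489 * t ^ 4
        + 861235924194 * t ^ 3 + 3389153374890 * t ^ 2 + 7625602267956 * t
        + 7625583136080)) = 3 ^ 18 := by
  linear_combination hrel

variable [CharZero F]

theorem h9_three_pow_ne_zero (n : ℕ) : (3 : F) ^ n ≠ 0 := pow_ne_zero n (by norm_num)

/-- `t⁻¹ ∈ A` for every subring `A ∋ j, t, 3⁻¹`. -/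
theorem inv_mem_of_rel9 {A : Type*} [SetLike A F] [SubringClass A F] (B : A) {j t : F}
    (hj : j ∈ B) (ht : t ∈ B) (h3 : (3 : F)⁻¹ ∈ B)
    (hrel : j * (t ^ 9 * (t ^ 2 + 9 * t + 27))
      = (t + 9) ^ 3 * (t ^ 3 + 243 * (t ^ 2 + 9 * t + 27)) ^ 3) : t⁻¹ ∈ B := by
  have hc := mul_cofactor_of_rel9 hrel
  have h30 : (3 : F) ^ 30 ≠ 0 := h9_three_pow_ne_zero 30
  have ht0 : t ≠ 0 := by
    rintro rfl
    rw [zero_mul] at hc
    exact h30 hc.symm
  have e : t⁻¹ = (j * (t ^ 8 * (t ^ 2 + 9 * t + 27))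
      - (t ^ 11 + 756 * t ^ 10 + 203634 * t ^ 9 + 22695228 * t ^ 8
        + 930553191 * t ^ 7 + 20241524808 * t ^ 6 + 272112672348 * t ^ 5
        + 2426801943096 * t ^ 4 + 14780479075839 * t ^ 3 + 61381352595204 * t ^ 2
        + 167763144669714 * t + 274521509459532)) * (3 : F)⁻¹ ^ 30 := by
    rw [inv_pow, eq_mul_inv_iff_mul_eq₀ h30, ← hc, ← mul_assoc, inv_mul_cancel₀ ht0, one_mul]
  rw [e]
  have hn : ∀ n : ℕ, (n : F) ∈ B := fun n => natCast_mem B n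
  have hQ : t ^ 2 + 9 * t + 27 ∈ B :=
    add_mem (add_mem (pow_mem ht 2) (mul_mem (by exact_mod_cast hn 9) ht))
      (by exact_mod_cast hn 27)
  refine mul_mem (sub_mem (mul_mem hj (mul_mem (pow_mem ht 8) hQ)) ?_) (pow_mem h3 30)
  refine add_mem (add_mem (add_mem (add_mem (add_mem (add_mem (add_mem (add_mem (add_mem
    (add_mem (add_mem (pow_mem ht 11) ?_) ?_) ?_) ?_) ?_) ?_) ?_) ?_) ?_) ?_) ?_
  · exact mul_mem (by exact_mod_cast hn 756) (pow_mem ht 10)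
  · exact mul_mem (by exact_mod_cast hn 203634) (pow_mem ht 9)
  · exact mul_mem (by exact_mod_cast hn 22695228) (pow_mem ht 8)
  · exact mul_mem (by exact_mod_cast hn 930553191) (pow_mem ht 7)
  · exact mul_mem (by exact_mod_cast hn 20241524808) (pow_mem ht 6)
  · exact mul_mem (by exact_mod_cast hn 272112672348) (pow_mem ht 5)
  · exact mul_mem (by exact_mod_cast hn 2426801943096) (pow_mem ht 4)
  · exact mul_mem (by exact_mod_cast hn 14780479075839) (pow_mem ht 3)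
  · exact mul_mem (by exact_mod_cast hn 61381352595204) (pow_mem ht 2)
  · exact mul_mem (by exact_mod_cast hn 167763144669714) ht
  · exact_mod_cast hn 274521509459532

/-- `Q(t)⁻¹ ∈ A` for every subring `A ∋ j, t, 3⁻¹`. -/
theorem quad_inv_mem_of_rel9 {A : Type*} [SetLike A F] [SubringClass A F] (B : A) {j t : F}
    (hj : j ∈ B) (ht : t ∈ B) (h3 : (3 : F)⁻¹ ∈ B)
    (hrel : j * (t ^ 9 * (t ^ 2 + 9 * t + 27))
      = (t + 9) ^ 3 * (t ^ 3 + 243 * (t ^ 2 + 9 * t + 27)) ^ 3) :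
    (t ^ 2 + 9 * t + 27)⁻¹ ∈ B := by
  have hc := quad_mul_cofactor_of_rel9 hrel
  have h18 : (3 : F) ^ 18 ≠ 0 := h9_three_pow_ne_zero 18
  have hQ0 : t ^ 2 + 9 * t + 27 ≠ 0 := by
    intro h
    rw [h, zero_mul] at hc
    exact h18 hc.symm
  have e : (t ^ 2 + 9 * t + 27)⁻¹ = (j * t ^ 9
      - (t ^ 10 + 747 * t ^ 9 + 196884 * t ^ 8 + 20903103 * t ^ 7
        + 737109396 * t ^ 6 + 13043156463 * t ^ 5 + 134822310489 * t ^ 4
        + 861235924194 * t ^ 3 + 3389153374890 * t ^ 2 + 7625602267956 * t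
        + 7625583136080)) * (3 : F)⁻¹ ^ 18 := by
    rw [inv_pow, eq_mul_inv_iff_mul_eq₀ h18, ← hc, ← mul_assoc, inv_mul_cancel₀ hQ0, one_mul]
  rw [e]
  have hn : ∀ n : ℕ, (n : F) ∈ B := fun n => natCast_mem B n
  refine mul_mem (sub_mem (mul_mem hj (pow_mem ht 9)) ?_) (pow_mem h3 18)
  refine add_mem (add_mem (add_mem (add_mem (add_mem (add_mem (add_mem (add_mem (add_mem
    (add_mem (pow_mem ht 10) ?_) ?_) ?_) ?_) ?_) ?_) ?_) ?_) ?_) ?_
  · exact mul_mem (by exact_mod_cast hn 747) (pow_mem ht 9)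
  · exact mul_mem (by exact_mod_cast hn 196884) (pow_mem ht 8)
  · exact mul_mem (by exact_mod_cast hn 20903103) (pow_mem ht 7)
  · exact mul_mem (by exact_mod_cast hn 737109396) (pow_mem ht 6)
  · exact mul_mem (by exact_mod_cast hn 13043156463) (pow_mem ht 5)
  · exact mul_mem (by exact_mod_cast hn 134822310489) (pow_mem ht 4)
  · exact mul_mem (by exact_mod_cast hn 861235924194) (pow_mem ht 3)
  · exact mul_mem (by exact_mod_cast hn 3389153374890) (pow_mem ht 2)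
  · exact mul_mem (by exact_mod_cast hn 7625602267956) ht
  · exact_mod_cast hn 7625583136080

/-- `g₉ = Q(t)⁵ · (t⁻¹)³ ∈ A`. -/
theorem g9_mem_of_rel9 {A : Type*} [SetLike A F] [SubringClass A F] (B : A) {j t : F}
    (hj : j ∈ B) (ht : t ∈ B) (h3 : (3 : F)⁻¹ ∈ B)
    (hrel : j * (t ^ 9 * (t ^ 2 + 9 * t + 27))
      = (t + 9) ^ 3 * (t ^ 3 + 243 * (t ^ 2 + 9 * t + 27)) ^ 3) :
    (t ^ 2 + 9 * t + 27) ^ 5 * (t ^ 3)⁻¹ ∈ B := by
  have hn : ∀ n : ℕ, (n : F) ∈ B := fun n => natCast_mem B n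
  have hQ : t ^ 2 + 9 * t + 27 ∈ B :=
    add_mem (add_mem (pow_mem ht 2) (mul_mem (by exact_mod_cast hn 9) ht))
      (by exact_mod_cast hn 27)
  rw [← inv_pow]
  exact mul_mem (pow_mem hQ 5) (pow_mem (inv_mem_of_rel9 B hj ht h3 hrel) 3)

/-- `g₉⁻¹ = t³ · (Q(t)⁻¹)⁵ ∈ A`. -/
theorem g9_inv_mem_of_rel9 {A : Type*} [SetLike A F] [SubringClass A F] (B : A) {j t : F}
    (hj : j ∈ B) (ht : t ∈ B) (h3 : (3 : F)⁻¹ ∈ B)
    (hrel : j * (t ^ 9 * (t ^ 2 + 9 * t + 27))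
      = (t + 9) ^ 3 * (t ^ 3 + 243 * (t ^ 2 + 9 * t + 27)) ^ 3) :
    ((t ^ 2 + 9 * t + 27) ^ 5 * (t ^ 3)⁻¹)⁻¹ ∈ B := by
  rw [mul_inv, inv_inv, ← inv_pow]
  exact mul_mem (pow_mem (quad_inv_mem_of_rel9 B hj ht h3 hrel) 5) (pow_mem ht 3)

end Units

end Fermat.Agent.S36.H890
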