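import Fermat.Agent.S36.H890.Haupt9

/-!
# Gauss units of level `9` (helper890, S36 cell REG, `q = 2`)

Every function below is `t⁻ⁿ · P(t)` with `P ∈ ℤ⟦t⟧`, `P(0) = 1`, over EVERY commutative ring `K`;
so its `t`-expansion is integral with a coefficient `1`, and it is a unit of the Gauss valuation
ring `V∞` of every level and every residue characteristic (`A2.Mod.H553.mem_of_int`,
`inv_mem_of_int`).  These are the unit hypotheses of helper934's `Congr9.t9_congr`
(`hU`, `hUe`, `hden`) and `Transfer9.hres_transfer9` (`hh₁`, `hQ₁`, `hj₁`, `hj₁'`):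

| function | `n` | statement |
|---|---|---|
| `t₉` | `1` | `Haupt9.t9` (definition), `coeff_t9_neg_one` |
| `Q(t₉) = t₉² + 9 t₉ + 27` | `2` | `Haupt9.t9_quad_eq`, `coeff_t9_quad_neg_two` |
| `den₉ = A B - 243 A + 9 B + 729` | `4` | `den9_eq`, `coeff_den9` |
| `U₃(j, j₃)` | `9` | `u3_eq`, `coeff_u3` |
| `U₃(j₃, j₉)` | `27` | `u3e_eq`, `coeff_u3e` |
| `j`, `j - 1728` | `1` | `jq_sub_eq`, `coeff_jq_sub` |
-/

set_option autoImplicit false

noncomputable section

namespace Fermat.Agent.S36.H890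

open PowerSeries ModularCurve Fermat.Agent.Lib.Haupt

/-! ## Polynomials -/

/-- `U₃ ∈ ℤ[x, y]` (`= Lib.Haupt.U3` at `x = j`, `y = j₃`; same body as `H934.u3`). -/
def h9u3 {S : Type*} [CommRing S] (x y : S) : S :=
  729 * x ^ 2 * y + 196830 * x * y ^ 2 + y ^ 3 - 524880 * x ^ 2 + 18821147040 * x * y
    - 103456080 * y ^ 2 + 14229831680000 * x + 276373831680000 * y - 3623878656000000000

/-- `W₃ ∈ ℤ[x, y]` (`= Lib.Haupt.W3` at `x = j`, `y = j₃`; same body as `H934.w3`). -/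
def h9w3 {S : Type*} [CommRing S] (x y : S) : S :=
  x * y ^ 3 + 19129644 * x * y ^ 2 - 756 * y ^ 3 + 531440 * x ^ 2 + 76509442080 * x * y
    + 23150726640 * y ^ 2 - 48430448640000 * x - 14204206448640000 * y
    + 97844723712000000000

/-- `den₉ = A B - 243 A + 9 B + 729` (same body as `H934.den9`). -/
def h9den {S : Type*} [CommRing S] (A B : S) : S := A * B - 243 * A + 9 * B + 729

/-- `num₉ = A² B + 18 A B + 27 B + 1458 A` (same body as `H934.num9`). -/
def h9num {S : Type*} [CommRing S] (A B : S) : S :=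
  A ^ 2 * B + 18 * (A * B) + 27 * B + 1458 * A

theorem map_h9u3 {S T : Type*} [CommRing S] [CommRing T] (f : S →+* T) (x y : S) :
    f (h9u3 x y) = h9u3 (f x) (f y) := by
  simp only [h9u3, map_sub, map_add, map_mul, map_pow, map_ofNat]

theorem map_h9w3 {S T : Type*} [CommRing S] [CommRing T] (f : S →+* T) (x y : S) :
    f (h9w3 x y) = h9w3 (f x) (f y) := by
  simp only [h9w3, map_sub, map_add, map_mul, map_pow, map_ofNat]

theorem map_h9den {S T : Type*} [CommRing S] [CommRing T] (f : S →+* T) (x y : S) :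
    f (h9den x y) = h9den (f x) (f y) := by
  simp only [h9den, map_sub, map_add, map_mul, map_ofNat]

theorem map_h9num {S T : Type*} [CommRing S] [CommRing T] (f : S →+* T) (x y : S) :
    f (h9num x y) = h9num (f x) (f y) := by
  simp only [h9num, map_add, map_mul, map_pow, map_ofNat]

/-! ## Shifts -/

section Shift

variable (K : Type*) [CommRing K]

/-- `t⁻ⁿ · tᵏ = t^{-(n-k)}`. -/
theorem qinv_pow_mul_X_pow {n k : ℕ} (h : k ≤ n) :
    qinv K ^ n * lau K X ^ k = qinv K ^ (n - k) := by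
  obtain ⟨m, rfl⟩ := Nat.exists_eq_add_of_le h
  rw [Nat.add_sub_cancel_left, pow_add, mul_right_comm, ← mul_pow, qinv_mul_lau_X, one_pow,
    one_mul]

/-- The coefficient of `t⁻ⁿ` in `t⁻ⁿ · P` is `P(0)`. -/
theorem coeff_qinv_pow_mul_lau (n : ℕ) (P : PowerSeries ℤ) :
    (qinv K ^ n * lau K P).coeff (-(n : ℤ)) = ((constantCoeff P : ℤ) : K) := by
  rw [qinv, HahnSeries.single_pow, HahnSeries.coeff_single_mul]
  simp only [one_pow, one_mul]
  rw [show -(n : ℤ) - n • (-1 : ℤ) = ((0 : ℕ) : ℤ) by simp, coeff_lau_natCast,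
    PowerSeries.coeff_zero_eq_constantCoeff]

theorem qExpand_qinv_pow_mul_lau (d : ℕ) [NeZero d] (n : ℕ) (P : PowerSeries ℤ) :
    qExpand K d (qinv K ^ n * lau K P) = qinv K ^ (d * n) * lau K (ex d P) := by
  rw [map_mul, map_pow, qExpand_qinv, qExpand_lau, ← pow_mul]

end Shift

/-! ## The integral power series -/

/-- `X³ · j(X³)`. -/
abbrev J3 : PowerSeries ℤ := ex 3 ModularCurve.jNum

theorem constantCoeff_J3 : constantCoeff J3 = 1 := by
  rw [J3, constantCoeff_ex, ModularCurve.constantCoeff_jNum]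

/-- `X⁹ · U₃(j, j₃)`. -/
def Pu3 : PowerSeries ℤ :=
  C 729 * (X ^ 4 * (ModularCurve.jNum ^ 2 * J3)) + C 196830 * (X ^ 2 * (ModularCurve.jNum * J3 ^ 2))
    + J3 ^ 3 - C 524880 * (X ^ 7 * ModularCurve.jNum ^ 2)
    + C 18821147040 * (X ^ 5 * (ModularCurve.jNum * J3)) - C 103456080 * (X ^ 3 * J3 ^ 2)
    + C 14229831680000 * (X ^ 8 * ModularCurve.jNum) + C 276373831680000 * (X ^ 6 * J3)
    - C 3623878656000000000 * X ^ 9

theorem constantCoeff_Pu3 : constantCoeff Pu3 = 1 := by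
  simp [Pu3]

section Laurent

variable (K : Type*) [CommRing K]

/-! ## `U₃(j, j₃)` and `U₃(j₃, j₉)` -/

/-- `U₃(j, j₃) = t⁻⁹ · Pu3`. -/
theorem u3_eq :
    h9u3 (jqModC K) (qExpand K 3 (jqModC K)) = qinv K ^ 9 * lau K Pu3 := by
  have s2 := qinv_pow_mul_X_pow K (n := 9) (k := 2) (by norm_num)
  have s3 := qinv_pow_mul_X_pow K (n := 9) (k := 3) (by norm_num)
  have s4 := qinv_pow_mul_X_pow K (n := 9) (k := 4) (by norm_num)
  have s5 := qinv_pow_mul_X_pow K (n := 9) (k := 5) (by norm_num)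
  have s6 := qinv_pow_mul_X_pow K (n := 9) (k := 6) (by norm_num)
  have s7 := qinv_pow_mul_X_pow K (n := 9) (k := 7) (by norm_num)
  have s8 := qinv_pow_mul_X_pow K (n := 9) (k := 8) (by norm_num)
  have s9 := qinv_pow_mul_X_pow K (n := 9) (k := 9) (by norm_num)
  norm_num at s2 s3 s4 s5 s6 s7 s8 s9
  rw [h9u3, Pu3, qExpand_jqModC, jqModC_eq]
  simp only [lau_sub, lau_add, lau_mul, lau_pow, lau_C]
  push_cast
  generalize lau K ModularCurve.jNum = a at *
  generalize lau K J3 = b at *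
  generalize lau K X = x at *
  generalize qinv K = q at *
  linear_combination (-(729 * (a ^ 2 * b))) * s4 + (-(196830 * (a * b ^ 2))) * s2
    + (524880 * a ^ 2) * s7 + (-(18821147040 * (a * b))) * s5 + (103456080 * b ^ 2) * s3
    + (-(14229831680000 * a)) * s8 + (-(276373831680000 * b)) * s6
    + (3623878656000000000 : LaurentSeries K) * s9

theorem coeff_u3 : (h9u3 (jqModC K) (qExpand K 3 (jqModC K))).coeff (-9) = 1 := by
  have h := coeff_qinv_pow_mul_lau K 9 Pu3
  rw [← u3_eq, constantCoeff_Pu3] at h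
  simpa using h

/-- `U₃(j₃, j₉) = t⁻²⁷ · Pu3(t³)`. -/
theorem u3e_eq :
    h9u3 (qExpand K 3 (jqModC K)) (qExpand K 9 (jqModC K))
      = qinv K ^ 27 * lau K (ex 3 Pu3) := by
  have h := congrArg (qExpand K 3) (u3_eq K)
  rw [map_h9u3, qExpand_qinv_pow_mul_lau, qExpand_qExpand] at h
  exact h

theorem coeff_u3e :
    (h9u3 (qExpand K 3 (jqModC K)) (qExpand K 9 (jqModC K))).coeff (-27) = 1 := by
  have h := coeff_qinv_pow_mul_lau K 27 (ex 3 Pu3)
  rw [← u3e_eq, constantCoeff_ex, constantCoeff_Pu3] at h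
  simpa using h

/-! ## `den₉` -/

/-- `den₉(t₃, t₃(t³)) = t⁻⁴ · D9`. -/
theorem den9_eq : h9den (t3 K) (qExpand K 3 (t3 K)) = qinv K ^ 4 * lau K D9 := by
  have s1 := qinv_pow_mul_X_pow K (n := 4) (k := 1) (by norm_num)
  have s3 := qinv_pow_mul_X_pow K (n := 4) (k := 3) (by norm_num)
  have s4 := qinv_pow_mul_X_pow K (n := 4) (k := 4) (by norm_num)
  norm_num at s1 s3 s4
  rw [h9den, D9, qExpand_t3, t3]
  simp only [lau_sub, lau_add, lau_mul, lau_pow, lau_C]
  push_cast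
  generalize lau K T3 = a at *
  generalize lau K T3e = b at *
  generalize lau K X = x at *
  generalize qinv K = q at *
  linear_combination (243 * a) * s3 + (-(9 * b)) * s1 + (-(729 : LaurentSeries K)) * s4

theorem coeff_den9 : (h9den (t3 K) (qExpand K 3 (t3 K))).coeff (-4) = 1 := by
  have h := coeff_qinv_pow_mul_lau K 4 D9
  rw [← den9_eq, constantCoeff_D9] at h
  simpa using h

/-! ## `j - c` -/

/-- `j + c = t⁻¹ · (jNum + c X)`. -/
theorem jq_add_eq (c : ℤ) :
    jqModC K + (c : LaurentSeries K) = qinv K ^ 1 * lau K (ModularCurve.jNum + C c * X) := by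
  rw [pow_one, jqModC_eq, t_add_const]

theorem coeff_jq_add (c : ℤ) : (jqModC K + (c : LaurentSeries K)).coeff (-1) = 1 := by
  have h := coeff_qinv_pow_mul_lau K 1 (ModularCurve.jNum + C c * X)
  rw [← jq_add_eq] at h
  simpa [ModularCurve.constantCoeff_jNum] using h

theorem coeff_jq_sub_1728 : (jqModC K - 1728).coeff (-1) = 1 := by
  have h := coeff_jq_add K (-1728)
  have e : jqModC K + ((-1728 : ℤ) : LaurentSeries K) = jqModC K - 1728 := by
    push_cast; ring
  rwa [e] at h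

/-! ## The relations `l1`, `l2`, `l3` of `Congr9.t9_congr`, over every FIELD -/

end Laurent

section Field

variable (K : Type*) [Field K]

theorem u3_eq_U3 : h9u3 (jqModC K) (qExpand K 3 (jqModC K)) = U3 K := rfl

theorem w3_eq_W3 : h9w3 (jqModC K) (qExpand K 3 (jqModC K)) = W3 K := rfl

/-- `l1` : `U₃(j, j₃) · t₃ = W₃(j, j₃)`. -/
theorem t3_lin9 :
    h9u3 (jqModC K) (qExpand K 3 (jqModC K)) * t3 K = h9w3 (jqModC K) (qExpand K 3 (jqModC K)) :=
  t3_lin K

/-- `l2` : `U₃(j₃, j₉) · t₃(t³) = W₃(j₃, j₉)`. -/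
theorem t3e_lin9 :
    h9u3 (qExpand K 3 (jqModC K)) (qExpand K 9 (jqModC K)) * qExpand K 3 (t3 K)
      = h9w3 (qExpand K 3 (jqModC K)) (qExpand K 9 (jqModC K)) := by
  have h := congrArg (qExpand K 3) (t3_lin9 K)
  rw [map_mul, map_h9u3, map_h9w3, qExpand_qExpand] at h
  exact h

/-- `l3` : `t₉ · den₉(A, B) = num₉(A, B)`. -/
theorem t9_lin9 :
    t9 K * h9den (t3 K) (qExpand K 3 (t3 K)) = h9num (t3 K) (qExpand K 3 (t3 K)) :=
  t9_mul K

end Field

end Fermat.Agent.S36.H890
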