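import Fermat.Agent.Lib.Haupt.Member

/-!
# The Hauptmodul `t₉` of `Γ₀(9)` (helper890, S36 cell REG: elliptic points, `q = 2`)

`t₉ = η(z)³/η(9z)³ = t⁻¹ ∏ (1 - tⁿ)³/(1 - t⁹ⁿ)³ = t⁻¹ - 3 + 5 t² - 7 t⁵ + …`, obtained here WITHOUT
any new modular input from helper637's level-3 relations (`Lib/Haupt`).  With `A = t₃`,
`B = t₃(t³)`:

  `t₉ := (A² B + 18 A B + 27 B + 1458 A) / (A B - 243 A + 9 B + 729)`.

Mirror of helper878's `S36/H878/Haupt4.lean` (level 4, odd `q`).  Write `Q(T) = T² + 9 T + 27`.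

* `t9_cube`    : `t₃ · Q(t₉) = t₉³`;
* `t3e_eq`     : `t₃(t³) = t₉ · Q(t₉)`;
* `t9_mul`     : the definition, `t₉ · (A B - 243 A + 9 B + 729) = A² B + 18 A B + 27 B + 1458 A`;
* `jq_mul_t9`  : `j · t₉⁹ Q(t₉) = (t₉ + 9)³ (t₉³ + 243 Q(t₉))³`;
* `jq_sub_1728_mul_t9` : `(j - 1728) · t₉⁹ Q(t₉) = (t₉⁶ - 486 t₉³ Q(t₉) - 19683 Q(t₉)²)²`;
* `t9_mul_cofactor`, `t9_quad_mul_cofactor` : `t₉ ∣ 3³⁰` and `Q(t₉) ∣ 3¹⁸` in `ℤ[j, t₉]`
  (so `t₉`, `Q(t₉)` are units of every chart on which `3` is invertible);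
* `t9_mem_fullC`, `t9_mem_full`, `t9_mem_laurentBaseChange` : `t₉ ∈ K(j_d : d ∣ M)` for `9 ∣ M`;
* `coeffMap_t9` : compatibility with change of coefficients.

`X₀(9)` has no elliptic points, and `t₉` is a local coordinate at every non-cuspidal point of
`X₀(9 M')` in every characteristic `≠ 3`: see `Theta9.lean` for `(θ t₉)⁶ t₉³ = Δ Q(t₉)⁵`.
-/

set_option autoImplicit false

noncomputable section

namespace Fermat.Agent.S36.H890

open PowerSeries ModularCurve Fermat.Agent.Lib.Haupt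

/-! ## Integral power series -/

/-- `X³ · t₃(X³)`. -/
abbrev T3e : PowerSeries ℤ := ex 3 T3

theorem constantCoeff_T3e : constantCoeff T3e = 1 := by
  rw [T3e, constantCoeff_ex, constantCoeff_T3]

/-- `j(X³) · (X³ t₃(X³))³ = (X³ t₃(X³) + 27 X³) (X³ t₃(X³) + 243 X³)³`. -/
theorem T3e_rel :
    ex 3 ModularCurve.jNum * T3e ^ 3 = (T3e + C 27 * X ^ 3) * (T3e + C 243 * X ^ 3) ^ 3 := by
  have h := congrArg (ex 3) T3_rel₁
  simp only [ex, map_mul, map_pow, map_add, PowerSeries.expand_X, PowerSeries.expand_C] at h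
  exact h

theorem T3_mul_T3e_sub_ne_zero : T3 * T3e - C 729 * X ^ 4 ≠ 0 := by
  intro h
  have := congrArg constantCoeff h
  simp [constantCoeff_T3] at this

/-- The modular equation of `X₀(9)` in terms of `a = X t₃`, `b = X³ t₃(X³)`:
`b³ = (a³ + 36 X a² + 270 X² a) b² + (729 X⁴ a² + 26244 X⁵ a) b + 531441 X⁸ a`. -/
theorem T3_T3e_rel :
    T3e ^ 3 = (T3 ^ 3 + C 36 * (X * T3 ^ 2) + C 270 * (X ^ 2 * T3)) * T3e ^ 2
      + (C 729 * (X ^ 4 * T3 ^ 2) + C 26244 * (X ^ 5 * T3)) * T3e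
      + C 531441 * (X ^ 8 * T3) := by
  have h1 := T3_rel₂
  have h2 := T3e_rel
  have e3 : (C (3 : ℤ) : PowerSeries ℤ) = 3 := map_ofNat C 3
  have e27 : (C (27 : ℤ) : PowerSeries ℤ) = 27 := map_ofNat C 27
  have e36 : (C (36 : ℤ) : PowerSeries ℤ) = 36 := map_ofNat C 36
  have e243 : (C (243 : ℤ) : PowerSeries ℤ) = 243 := map_ofNat C 243
  have e270 : (C (270 : ℤ) : PowerSeries ℤ) = 270 := map_ofNat C 270
  have e729 : (C (729 : ℤ) : PowerSeries ℤ) = 729 := map_ofNat C 729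
  have e26244 : (C (26244 : ℤ) : PowerSeries ℤ) = 26244 := map_ofNat C 26244
  have e531441 : (C (531441 : ℤ) : PowerSeries ℤ) = 531441 := map_ofNat C 531441
  rw [e3, e27] at h1
  rw [e27, e243] at h2
  rw [e36, e270, e729, e26244, e531441]
  have hne := T3_mul_T3e_sub_ne_zero
  rw [e729] at hne
  have key : (T3 * T3e - 729 * X ^ 4) *
      (T3e ^ 3 - ((T3 ^ 3 + 36 * (X * T3 ^ 2) + 270 * (X ^ 2 * T3)) * T3e ^ 2
        + (729 * (X ^ 4 * T3 ^ 2) + 26244 * (X ^ 5 * T3)) * T3e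
        + 531441 * (X ^ 8 * T3))) = 0 := by
    linear_combination T3e ^ 3 * h1 - T3 * h2
  rcases mul_eq_zero.1 key with h | h
  · exact absurd h hne
  · exact sub_eq_zero.1 h

/-- Numerator of `X t₉`. -/
def N9 : PowerSeries ℤ :=
  T3 ^ 2 * T3e + C 18 * (X * (T3 * T3e)) + C 27 * (X ^ 2 * T3e) + C 1458 * (X ^ 4 * T3)

/-- Denominator of `X t₉`. -/
def D9 : PowerSeries ℤ :=
  T3 * T3e - C 243 * (X ^ 3 * T3) + C 9 * (X * T3e) + C 729 * X ^ 4

theorem constantCoeff_N9 : constantCoeff N9 = 1 := by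
  simp [N9, constantCoeff_T3]

theorem constantCoeff_D9 : constantCoeff D9 = 1 := by
  simp [D9, constantCoeff_T3]

theorem D9_ne_zero : D9 ≠ 0 := fun h => by
  have := constantCoeff_D9; rw [h, map_zero] at this; exact zero_ne_one this

/-- `X · t₉`, an integral power series with constant coefficient `1`. -/
def T9 : PowerSeries ℤ := N9 * D9.invOfUnit 1

theorem T9_mul : T9 * D9 = N9 := by
  have hu : D9 * D9.invOfUnit 1 = 1 :=
    PowerSeries.mul_invOfUnit _ _ (by rw [constantCoeff_D9]; rfl)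
  rw [T9]
  linear_combination N9 * hu

theorem constantCoeff_T9 : constantCoeff T9 = 1 := by
  have h := congrArg constantCoeff T9_mul
  simpa [constantCoeff_N9, constantCoeff_D9] using h

/-- `X² Q(t₉)`, `Q(T) = T² + 9 T + 27`. -/
abbrev Q9 : PowerSeries ℤ := T9 ^ 2 + C 9 * (X * T9) + C 27 * X ^ 2

theorem constantCoeff_Q9 : constantCoeff Q9 = 1 := by
  simp [Q9, constantCoeff_T9]

/-- `t₃ · Q(t₉) = t₉³`. -/
theorem T9_cube : T3 * Q9 = T9 ^ 3 := by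
  have h := T9_mul
  have hr := T3_T3e_rel
  have e9 : (C (9 : ℤ) : PowerSeries ℤ) = 9 := map_ofNat C 9
  have e18 : (C (18 : ℤ) : PowerSeries ℤ) = 18 := map_ofNat C 18
  have e27 : (C (27 : ℤ) : PowerSeries ℤ) = 27 := map_ofNat C 27
  have e36 : (C (36 : ℤ) : PowerSeries ℤ) = 36 := map_ofNat C 36
  have e243 : (C (243 : ℤ) : PowerSeries ℤ) = 243 := map_ofNat C 243
  have e270 : (C (270 : ℤ) : PowerSeries ℤ) = 270 := map_ofNat C 270
  have e729 : (C (729 : ℤ) : PowerSeries ℤ) = 729 := map_ofNat C 729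
  have e1458 : (C (1458 : ℤ) : PowerSeries ℤ) = 1458 := map_ofNat C 1458
  have e26244 : (C (26244 : ℤ) : PowerSeries ℤ) = 26244 := map_ofNat C 26244
  have e531441 : (C (531441 : ℤ) : PowerSeries ℤ) = 531441 := map_ofNat C 531441
  have hne := D9_ne_zero
  rw [N9, D9, e9, e18, e27, e243, e729, e1458] at h
  rw [D9, e9, e243, e729] at hne
  rw [e36, e270, e729, e26244, e531441] at hr
  rw [Q9, e9, e27]
  apply mul_right_cancel₀ (pow_ne_zero 3 hne)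
  generalize T9 = τ at h ⊢
  generalize T3 = a at h hr ⊢
  generalize T3e = b at h hr ⊢
  generalize (X : PowerSeries ℤ) = x at h hr ⊢
  linear_combination
    (a * (a * b - 243 * (x ^ 3 * a) + 9 * (x * b) + 729 * x ^ 4)
        * ((τ * (a * b - 243 * (x ^ 3 * a) + 9 * (x * b) + 729 * x ^ 4)
            + (a ^ 2 * b + 18 * (x * (a * b)) + 27 * (x ^ 2 * b) + 1458 * (x ^ 4 * a)))
          + 9 * x * (a * b - 243 * (x ^ 3 * a) + 9 * (x * b) + 729 * x ^ 4))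
      - ((τ * (a * b - 243 * (x ^ 3 * a) + 9 * (x * b) + 729 * x ^ 4)) ^ 2
          + (τ * (a * b - 243 * (x ^ 3 * a) + 9 * (x * b) + 729 * x ^ 4))
            * (a ^ 2 * b + 18 * (x * (a * b)) + 27 * (x ^ 2 * b) + 1458 * (x ^ 4 * a))
          + (a ^ 2 * b + 18 * (x * (a * b)) + 27 * (x ^ 2 * b) + 1458 * (x ^ 4 * a)) ^ 2)) * h
    - (-243 * x ^ 3 * a ^ 3 - 5103 * x ^ 4 * a ^ 2 - 6561 * x ^ 5 * a + 19683 * x ^ 6) * hr

/-- `t₃(t³) = t₉ · Q(t₉)`. -/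
theorem T3e_eq : T3e = T9 * Q9 := by
  have h := T9_mul
  have hr := T3_T3e_rel
  have e9 : (C (9 : ℤ) : PowerSeries ℤ) = 9 := map_ofNat C 9
  have e18 : (C (18 : ℤ) : PowerSeries ℤ) = 18 := map_ofNat C 18
  have e27 : (C (27 : ℤ) : PowerSeries ℤ) = 27 := map_ofNat C 27
  have e36 : (C (36 : ℤ) : PowerSeries ℤ) = 36 := map_ofNat C 36
  have e243 : (C (243 : ℤ) : PowerSeries ℤ) = 243 := map_ofNat C 243
  have e270 : (C (270 : ℤ) : PowerSeries ℤ) = 270 := map_ofNat C 270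
  have e729 : (C (729 : ℤ) : PowerSeries ℤ) = 729 := map_ofNat C 729
  have e1458 : (C (1458 : ℤ) : PowerSeries ℤ) = 1458 := map_ofNat C 1458
  have e26244 : (C (26244 : ℤ) : PowerSeries ℤ) = 26244 := map_ofNat C 26244
  have e531441 : (C (531441 : ℤ) : PowerSeries ℤ) = 531441 := map_ofNat C 531441
  have hne := D9_ne_zero
  rw [N9, D9, e9, e18, e27, e243, e729, e1458] at h
  rw [D9, e9, e243, e729] at hne
  rw [e36, e270, e729, e26244, e531441] at hr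
  rw [Q9, e9, e27]
  apply mul_right_cancel₀ (pow_ne_zero 3 hne)
  generalize T9 = τ at h ⊢
  generalize T3 = a at h hr ⊢
  generalize T3e = b at h hr ⊢
  generalize (X : PowerSeries ℤ) = x at h hr ⊢
  linear_combination
    (-((a ^ 2 * b + 18 * (x * (a * b)) + 27 * (x ^ 2 * b) + 1458 * (x ^ 4 * a)) ^ 2
        + (a ^ 2 * b + 18 * (x * (a * b)) + 27 * (x ^ 2 * b) + 1458 * (x ^ 4 * a))
          * (τ * (a * b - 243 * (x ^ 3 * a) + 9 * (x * b) + 729 * x ^ 4))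
        + (τ * (a * b - 243 * (x ^ 3 * a) + 9 * (x * b) + 729 * x ^ 4)) ^ 2
        + 9 * x * (a * b - 243 * (x ^ 3 * a) + 9 * (x * b) + 729 * x ^ 4)
          * ((a ^ 2 * b + 18 * (x * (a * b)) + 27 * (x ^ 2 * b) + 1458 * (x ^ 4 * a))
            + τ * (a * b - 243 * (x ^ 3 * a) + 9 * (x * b) + 729 * x ^ 4))
        + 27 * x ^ 2 * (a * b - 243 * (x ^ 3 * a) + 9 * (x * b) + 729 * x ^ 4) ^ 2)) * h
    - (-a ^ 3 * b - 27 * x * a ^ 2 * b - 243 * x ^ 2 * a * b - 729 * x ^ 3 * b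
        - 1458 * x ^ 4 * a ^ 2 - 39366 * x ^ 6) * hr

/-- `t₉⁴ = t₃ · t₃(t³)`. -/
theorem T9_pow_four : T9 ^ 4 = T3 * T3e := by
  have h1 := T9_cube
  have h2 := T3e_eq
  linear_combination (-T9) * h1 - T3 * h2

/-! ## Laurent series over an arbitrary commutative ring -/

section Laurent

variable (K : Type*) [CommRing K]

/-- The Hauptmodul of `Γ₀(9)`: `t₉ = η(z)³/η(9z)³ = t⁻¹ - 3 + 5 t² - 7 t⁵ + …`. -/
def t9 : LaurentSeries K := qinv K * lau K T9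

theorem t9_add_const (c : ℤ) :
    t9 K + (c : LaurentSeries K) = qinv K * lau K (T9 + PowerSeries.C c * X) := by
  rw [t9, t_add_const]

theorem t3_add_const (c : ℤ) :
    t3 K + (c : LaurentSeries K) = qinv K * lau K (T3 + PowerSeries.C c * X) := by
  rw [t3, t_add_const]

/-- `Q(t₉) = t⁻² · (X² Q(t₉))`. -/
theorem t9_quad_eq : t9 K ^ 2 + 9 * t9 K + 27 = qinv K ^ 2 * lau K Q9 := by
  have hx := qinv_mul_lau_X K
  rw [Q9, t9]
  simp only [lau_add, lau_mul, lau_pow, lau_C]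
  push_cast
  linear_combination (-(9 * (qinv K * lau K T9) + 27 * (1 + qinv K * lau K X))) * hx

theorem qExpand_t3 : qExpand K 3 (t3 K) = qinv K ^ 3 * lau K T3e := by
  rw [t3, map_mul, qExpand_qinv, qExpand_lau]

/-- `t₃ · Q(t₉) = t₉³`. -/
theorem t9_cube : t3 K * (t9 K ^ 2 + 9 * t9 K + 27) = t9 K ^ 3 := by
  have h := congrArg (fun f => qinv K ^ 3 * lau K f) T9_cube
  simp only [lau_mul, lau_pow] at h
  rw [t9_quad_eq, t9, t3]
  linear_combination h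

/-- `t₃(t³) = t₉ · Q(t₉)`. -/
theorem t3e_eq : qExpand K 3 (t3 K) = t9 K * (t9 K ^ 2 + 9 * t9 K + 27) := by
  have h := congrArg (fun f => qinv K ^ 3 * lau K f) T3e_eq
  simp only [lau_mul] at h
  rw [qExpand_t3, t9_quad_eq, t9]
  linear_combination h

/-- `t₉⁴ = t₃ · t₃(t³)`. -/
theorem t9_pow_four : t9 K ^ 4 = t3 K * qExpand K 3 (t3 K) := by
  linear_combination (-t9 K) * t9_cube K - t3 K * t3e_eq K

/-- The definition of `t₉`:
`t₉ · (A B - 243 A + 9 B + 729) = A² B + 18 A B + 27 B + 1458 A`, `A = t₃`, `B = t₃(t³)`. -/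
theorem t9_mul :
    t9 K * (t3 K * qExpand K 3 (t3 K) - 243 * t3 K + 9 * qExpand K 3 (t3 K) + 729)
      = t3 K ^ 2 * qExpand K 3 (t3 K) + 18 * (t3 K * qExpand K 3 (t3 K))
        + 27 * qExpand K 3 (t3 K) + 1458 * t3 K := by
  linear_combination
    (t9 K * t3 K + 9 * t9 K - t3 K ^ 2 - 18 * t3 K - 27) * t3e_eq K
      + (-(t9 K * t3 K) - 9 * t9 K - 54) * t9_cube K

/-- `(t₉ + 9)³ = (t₃ + 27) · Q(t₉)`. -/
theorem t9_add_9_cube : (t9 K + 9) ^ 3 = (t3 K + 27) * (t9 K ^ 2 + 9 * t9 K + 27) := by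
  linear_combination -(t9_cube K)

/-- `(t₉ + 3)³ = t₃(t³) + 27`. -/
theorem t9_add_3_cube : (t9 K + 3) ^ 3 = qExpand K 3 (t3 K) + 27 := by
  linear_combination -(t3e_eq K)

/-- `t₉³ + 243 Q(t₉) = (t₃ + 243) · Q(t₉)`. -/
theorem t9_cube_add : t9 K ^ 3 + 243 * (t9 K ^ 2 + 9 * t9 K + 27)
    = (t3 K + 243) * (t9 K ^ 2 + 9 * t9 K + 27) := by
  linear_combination -(t9_cube K)

/-- `t₉⁶ - 486 t₉³ Q(t₉) - 19683 Q(t₉)² = (t₃² - 486 t₃ - 19683) · Q(t₉)²`. -/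
theorem t9_sextic_eq :
    t9 K ^ 6 - 486 * (t9 K ^ 3 * (t9 K ^ 2 + 9 * t9 K + 27))
        - 19683 * (t9 K ^ 2 + 9 * t9 K + 27) ^ 2
      = (t3 K ^ 2 - 486 * t3 K - 19683) * (t9 K ^ 2 + 9 * t9 K + 27) ^ 2 := by
  linear_combination
    (-(t9 K ^ 3) - t3 K * (t9 K ^ 2 + 9 * t9 K + 27)
      + 486 * (t9 K ^ 2 + 9 * t9 K + 27)) * t9_cube K

theorem t9_pow_nine : t9 K ^ 9 = t3 K ^ 3 * (t9 K ^ 2 + 9 * t9 K + 27) ^ 3 := by
  have h := congrArg (fun x => x ^ 3) (t9_cube K)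
  beta_reduce at h
  linear_combination -h

/-- `j · t₉⁹ Q(t₉) = (t₉ + 9)³ (t₉³ + 243 Q(t₉))³`. -/
theorem jq_mul_t9 :
    jqModC K * (t9 K ^ 9 * (t9 K ^ 2 + 9 * t9 K + 27))
      = (t9 K + 9) ^ 3 * (t9 K ^ 3 + 243 * (t9 K ^ 2 + 9 * t9 K + 27)) ^ 3 := by
  rw [t9_add_9_cube, t9_cube_add, t9_pow_nine]
  linear_combination (t9 K ^ 2 + 9 * t9 K + 27) ^ 4 * jq_mul_t3_cube K

/-- `(j - 1728) · t₉⁹ Q(t₉) = (t₉⁶ - 486 t₉³ Q(t₉) - 19683 Q(t₉)²)²`. -/
theorem jq_sub_1728_mul_t9 :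
    (jqModC K - 1728) * (t9 K ^ 9 * (t9 K ^ 2 + 9 * t9 K + 27))
      = (t9 K ^ 6 - 486 * (t9 K ^ 3 * (t9 K ^ 2 + 9 * t9 K + 27))
          - 19683 * (t9 K ^ 2 + 9 * t9 K + 27) ^ 2) ^ 2 := by
  rw [t9_sextic_eq, t9_pow_nine]
  linear_combination (t9 K ^ 2 + 9 * t9 K + 27) ^ 4 * jq_sub_1728_mul_t3_cube K

/-- `t₉` is a root of the monic polynomial `(T + 9)³ (T³ + 243 Q(T))³ - j T⁹ Q(T)` of degree `12`
over `ℤ[j]`. -/
theorem t9_duodecic :
    (t9 K + 9) ^ 3 * (t9 K ^ 3 + 243 * (t9 K ^ 2 + 9 * t9 K + 27)) ^ 3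
      - jqModC K * (t9 K ^ 9 * (t9 K ^ 2 + 9 * t9 K + 27)) = 0 := by
  rw [jq_mul_t9, sub_self]

/-- `t₉ ∣ 3³⁰` in `ℤ[j, t₉]`. -/
theorem t9_mul_cofactor :
    t9 K * (jqModC K * (t9 K ^ 8 * (t9 K ^ 2 + 9 * t9 K + 27))
      - (t9 K ^ 11 + 756 * t9 K ^ 10 + 203634 * t9 K ^ 9 + 22695228 * t9 K ^ 8
        + 930553191 * t9 K ^ 7 + 20241524808 * t9 K ^ 6 + 272112672348 * t9 K ^ 5
        + 2426801943096 * t9 K ^ 4 + 14780479075839 * t9 K ^ 3 + 61381352595204 * t9 K ^ 2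
        + 167763144669714 * t9 K + 274521509459532)) = 3 ^ 30 := by
  linear_combination jq_mul_t9 K

/-- `Q(t₉) ∣ 3¹⁸` in `ℤ[j, t₉]`. -/
theorem t9_quad_mul_cofactor :
    (t9 K ^ 2 + 9 * t9 K + 27) * (jqModC K * t9 K ^ 9
      - (t9 K ^ 10 + 747 * t9 K ^ 9 + 196884 * t9 K ^ 8 + 20903103 * t9 K ^ 7
        + 737109396 * t9 K ^ 6 + 13043156463 * t9 K ^ 5 + 134822310489 * t9 K ^ 4
        + 861235924194 * t9 K ^ 3 + 3389153374890 * t9 K ^ 2 + 7625602267956 * t9 K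
        + 7625583136080)) = 3 ^ 18 := by
  linear_combination jq_mul_t9 K

/-- `t₃ ∣ 3¹⁸` in `ℤ[j, t₃]`. -/
theorem t3_mul_cofactor :
    t3 K * (jqModC K * t3 K ^ 2
      - (t3 K ^ 3 + 756 * t3 K ^ 2 + 196830 * t3 K + 19131876)) = 3 ^ 18 := by
  linear_combination jq_mul_t3_cube K

/-! ### Basic properties -/

variable {K}

/-- `t₉` is compatible with every change of coefficients (base change, reduction mod `ℓ`). -/
theorem coeffMap_t9 {K' : Type*} [CommRing K'] (φ : K →+* K') :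
    coeffMap φ (t9 K) = t9 K' := by
  rw [t9, map_mul, coeffMap_qinv, coeffMap_lau, t9]

variable (K)

/-- `t₉ = t⁻¹ + …`. -/
theorem coeff_t9_neg_one : (t9 K).coeff (-1) = 1 := by
  rw [t9, coeff_qinv_mul_lau, show (-1 : ℤ) + 1 = ((0 : ℕ) : ℤ) by norm_num, coeff_lau_natCast,
    PowerSeries.coeff_zero_eq_constantCoeff, constantCoeff_T9, Int.cast_one]

theorem coeff_t9_of_lt {k : ℤ} (hk : k < -1) : (t9 K).coeff k = 0 := by
  rw [t9, coeff_qinv_mul_lau, coeff_lau_of_neg K _ (by omega)]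

theorem t9_ne_zero [Nontrivial K] : t9 K ≠ 0 := fun h => by
  have := coeff_t9_neg_one K
  rw [h] at this
  simp at this

theorem coeff_t3_add_neg_one (c : ℤ) : (t3 K + (c : LaurentSeries K)).coeff (-1) = 1 := by
  rw [t3_add_const, coeff_qinv_mul_lau, show (-1 : ℤ) + 1 = ((0 : ℕ) : ℤ) by norm_num,
    coeff_lau_natCast, PowerSeries.coeff_zero_eq_constantCoeff]
  simp [constantCoeff_T3]

theorem coeff_t9_add_neg_one (c : ℤ) : (t9 K + (c : LaurentSeries K)).coeff (-1) = 1 := by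
  rw [t9_add_const, coeff_qinv_mul_lau, show (-1 : ℤ) + 1 = ((0 : ℕ) : ℤ) by norm_num,
    coeff_lau_natCast, PowerSeries.coeff_zero_eq_constantCoeff]
  simp [constantCoeff_T9]

theorem t3_add_ne_zero [Nontrivial K] (c : ℤ) : t3 K + (c : LaurentSeries K) ≠ 0 := fun h => by
  have := coeff_t3_add_neg_one K c
  rw [h] at this
  simp at this

theorem t9_add_ne_zero [Nontrivial K] (c : ℤ) : t9 K + (c : LaurentSeries K) ≠ 0 := fun h => by
  have := coeff_t9_add_neg_one K c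
  rw [h] at this
  simp at this

/-- `Q(t₉) = t⁻² + …`. -/
theorem coeff_t9_quad_neg_two : (t9 K ^ 2 + 9 * t9 K + 27).coeff (-2) = 1 := by
  rw [t9_quad_eq, qinv, HahnSeries.single_pow, HahnSeries.coeff_single_mul]
  simp only [one_pow, one_mul]
  rw [show (-2 : ℤ) - (2 : ℕ) • (-1 : ℤ) = ((0 : ℕ) : ℤ) by norm_num, coeff_lau_natCast,
    PowerSeries.coeff_zero_eq_constantCoeff, constantCoeff_Q9, Int.cast_one]

theorem t9_quad_ne_zero [Nontrivial K] : t9 K ^ 2 + 9 * t9 K + 27 ≠ 0 := fun h => by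
  have := coeff_t9_quad_neg_two K
  rw [h] at this
  simp at this

end Laurent

/-! ## Membership in the function field of `X₀(M)`, `9 ∣ M` -/

section Field

variable (K : Type*) [Field K]

theorem h9_fullC_le_of_dvd {N M : ℕ} (h : N ∣ M) :
    modularFunctionFieldFullC K N ≤ modularFunctionFieldFullC K M := by
  rw [modularFunctionFieldFullC, IntermediateField.adjoin_le_iff]
  rintro x ⟨d, hne, hdvd, rfl⟩
  exact @jqModCd_mem_full K _ M d hne (hdvd.trans h)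

theorem qExpand_t3_mem_fullC (M : ℕ) (h9 : 9 ∣ M) :
    qExpand K 3 (t3 K) ∈ modularFunctionFieldFullC K M := by
  have h3 : t3 K ∈ modularFunctionFieldFullC K 3 := t3_mem_fullC K 3 dvd_rfl
  have h := full_degeneracyC_map_le K 3 3
    ((IntermediateField.mem_map _).2 ⟨t3 K, h3, rfl⟩)
  rw [qExpandAlgHomC_apply] at h
  exact h9_fullC_le_of_dvd K (N := 3 * 3) (M := M) (by simpa using h9) h

/-- The denominator of `t₉` is `t⁻⁴ · D9`. -/
theorem t9_den_mul :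
    (t3 K * qExpand K 3 (t3 K) - 243 * t3 K + 9 * qExpand K 3 (t3 K) + 729) * lau K X ^ 4
      = lau K D9 := by
  have hx := qinv_mul_lau_X K
  rw [D9, qExpand_t3, t3]
  simp only [lau_sub, lau_add, lau_mul, lau_pow, lau_C]
  push_cast
  linear_combination
    (lau K T3 * lau K T3e * (1 + qinv K * lau K X + (qinv K * lau K X) ^ 2
        + (qinv K * lau K X) ^ 3)
      - 243 * (lau K T3 * lau K X ^ 3)
      + 9 * (lau K T3e * lau K X) * (1 + qinv K * lau K X + (qinv K * lau K X) ^ 2)) * hx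

theorem t9_den_ne_zero :
    t3 K * qExpand K 3 (t3 K) - 243 * t3 K + 9 * qExpand K 3 (t3 K) + 729 ≠ 0 :=
  ne_zero_of_mul_eq_lau K (t9_den_mul K) constantCoeff_D9

/-- **`t₉ ∈ K(j_d : d ∣ M)` for `9 ∣ M`**, over every field `K`. -/
theorem t9_mem_fullC (M : ℕ) (h9 : 9 ∣ M) : t9 K ∈ modularFunctionFieldFullC K M := by
  have h3 : t3 K ∈ modularFunctionFieldFullC K M :=
    t3_mem_fullC K M ((by norm_num : (3 : ℕ) ∣ 9).trans h9)
  have h3e := qExpand_t3_mem_fullC K M h9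
  have h : t9 K = (t3 K ^ 2 * qExpand K 3 (t3 K) + 18 * (t3 K * qExpand K 3 (t3 K))
        + 27 * qExpand K 3 (t3 K) + 1458 * t3 K)
      / (t3 K * qExpand K 3 (t3 K) - 243 * t3 K + 9 * qExpand K 3 (t3 K) + 729) := by
    rw [eq_div_iff (t9_den_ne_zero K)]
    exact t9_mul K
  rw [h]
  exact div_mem
    (add_mem (add_mem (add_mem (mul_mem (pow_mem h3 2) h3e)
      (mul_mem (ofNat_mem _ 18) (mul_mem h3 h3e))) (mul_mem (ofNat_mem _ 27) h3e))
      (mul_mem (ofNat_mem _ 1458) h3))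
    (add_mem (add_mem (sub_mem (mul_mem h3 h3e) (mul_mem (ofNat_mem _ 243) h3))
      (mul_mem (ofNat_mem _ 9) h3e)) (ofNat_mem _ 729))

end Field

/-- `t₉ ∈ ℚ(j_d : d ∣ M)` for `9 ∣ M`. -/
theorem t9_mem_full (M : ℕ) (h9 : 9 ∣ M) : t9 ℚ ∈ modularFunctionFieldFull M :=
  t9_mem_fullC ℚ M h9

/-- `t₉ ∈ L(j_d : d ∣ M)` for `9 ∣ M`, in the base-changed function field. -/
theorem t9_mem_laurentBaseChange (L : Type*) [Field L] [Algebra ℚ L] (M : ℕ) (h9 : 9 ∣ M) :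
    t9 L ∈ laurentBaseChange L (modularFunctionFieldFull M) := by
  have h := coeffEmb_mem_laurentBaseChange L (t9_mem_full M h9)
  rwa [coeffEmb, coeffMap_t9] at h

end Fermat.Agent.S36.H890
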