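import Fermat.Agent.S36.H890.Chart9

/-!
# `g₉` is a unit of every chart in residue characteristic `2` (helper890, S36 cell REG, `q = 2`)

Mathlib + `S18.H138.chart` only.

* `three_inv_mem_of_two_mem_nonunits` : `2 ∈ 𝔪_V ⟹ 3⁻¹ ∈ V`;
* `exists_g9_unit` : `B` a subalgebra of `F` containing `j`, `t`, `3⁻¹`, with
  `j t⁹ Q(t) = (t + 9)³ (t³ + 243 Q(t))³`: for every `k` there are `g, g' ∈ B` with
  `g = (Q(t)⁵ (t³)⁻¹) ^ k` in `F` and `g g' = 1`;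
* `not_mem_of_mul_eq_one` : a unit of `B` lies in no proper ideal — so `g ∉ 𝔪` at EVERY closed
  point `𝔪` of the chart: hypothesis `hg` of `H878.principalAt_of_unit_self'` with the `g` of
  `H934.hres_transfer9`.
-/

set_option autoImplicit false

noncomputable section

namespace Fermat.Agent.S36.H890

open Fermat.Agent.S18.H138

/-- `2 ∈ 𝔪_V ⟹ 3` is a unit of `V`. -/
theorem three_inv_mem_of_two_mem_nonunits {L : Type*} [Field L] (V : ValuationSubring L)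
    (h2 : (2 : L) ∈ V.nonunits) : (3 : L)⁻¹ ∈ V := by
  have hv2 : V.valuation (2 : L) < 1 := (V.mem_nonunits_iff).1 h2
  have hv1 : V.valuation (1 : L) = 1 := map_one _
  have h3 : V.valuation (3 : L) = 1 := by
    have e : (3 : L) = 2 + 1 := by norm_num
    rw [e]
    have := Valuation.map_add_eq_of_lt_right V.valuation (x := (2 : L)) (y := (1 : L))
      (by rw [hv1]; exact hv2)
    rw [this, hv1]
  rw [← V.valuation_le_one_iff, map_inv₀, h3, inv_one]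

theorem not_mem_of_mul_eq_one {B : Type*} [CommRing B] {g g' : B} (h : g * g' = 1)
    (𝔪 : Ideal B) (h𝔪 : 𝔪 ≠ ⊤) : g ∉ 𝔪 := fun hg =>
  h𝔪 ((Ideal.eq_top_iff_one 𝔪).2 (h ▸ 𝔪.mul_mem_right g' hg))

section Sub

variable {R F : Type*} [CommRing R] [Field F] [CharZero F] [Algebra R F]

/-- **`g₉ ^ k` is a unit of `B`.** -/
theorem exists_g9_unit (B : Subalgebra R F) {j t : F} (hj : j ∈ B) (ht : t ∈ B)
    (h3 : (3 : F)⁻¹ ∈ B)
    (hrel : j * (t ^ 9 * (t ^ 2 + 9 * t + 27))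
      = (t + 9) ^ 3 * (t ^ 3 + 243 * (t ^ 2 + 9 * t + 27)) ^ 3) (k : ℕ) :
    ∃ g g' : B, (g : F) = ((t ^ 2 + 9 * t + 27) ^ 5 * (t ^ 3)⁻¹) ^ k ∧ g * g' = 1 := by
  have hg := g9_mem_of_rel9 B hj ht h3 hrel
  have hg' := g9_inv_mem_of_rel9 B hj ht h3 hrel
  have hc := mul_cofactor_of_rel9 hrel
  have hcQ := quad_mul_cofactor_of_rel9 hrel
  have ht0 : t ≠ 0 := by
    rintro rfl
    rw [zero_mul] at hc
    exact h9_three_pow_ne_zero 30 hc.symm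
  have hQ0 : t ^ 2 + 9 * t + 27 ≠ 0 := by
    intro h
    rw [h, zero_mul] at hcQ
    exact h9_three_pow_ne_zero 18 hcQ.symm
  have hg0 : (t ^ 2 + 9 * t + 27) ^ 5 * (t ^ 3)⁻¹ ≠ 0 :=
    mul_ne_zero (pow_ne_zero 5 hQ0) (inv_ne_zero (pow_ne_zero 3 ht0))
  refine ⟨⟨_, pow_mem hg k⟩, ⟨_, pow_mem hg' k⟩, rfl, ?_⟩
  apply Subtype.ext
  show ((t ^ 2 + 9 * t + 27) ^ 5 * (t ^ 3)⁻¹) ^ k
      * (((t ^ 2 + 9 * t + 27) ^ 5 * (t ^ 3)⁻¹)⁻¹) ^ k = 1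
  rw [← mul_pow, mul_inv_cancel₀ hg0, one_pow]

/-- The same in the chart `B = chart R S`, from `j ∈ B` and `3⁻¹ ∈ B` only. -/
theorem exists_g9_unit_chart (S : Set F) {j t : F} (hj : j ∈ chart R S)
    (h3 : (3 : F)⁻¹ ∈ chart R S)
    (hrel : j * (t ^ 9 * (t ^ 2 + 9 * t + 27))
      = (t + 9) ^ 3 * (t ^ 3 + 243 * (t ^ 2 + 9 * t + 27)) ^ 3) (k : ℕ) :
    ∃ g g' : chart R S, (g : F) = ((t ^ 2 + 9 * t + 27) ^ 5 * (t ^ 3)⁻¹) ^ k ∧ g * g' = 1 :=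
  exists_g9_unit (chart R S) hj (mem_chart_of_rel9 S hj hrel) h3 hrel k

end Sub

end Fermat.Agent.S36.H890
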