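import Fermat.Agent.S36.H878.RegSelf
import Fermat.Agent.S36.H934.Transfer9
import Fermat.Agent.S36.H890.Unit9B

/-!
# `PrincipalAt` on the middle component from the Hauptmodul `t₉` (helper890, S36 REG, `q = 2`)

The level-`9` (`q = 2`) form of route R4, in the vocabulary of `Eng.TripleCtx`; composition of

* `H878.principalAt_of_unit_self'` (PU-self, elementwise, from `Qep3`),
* `H934.hres_transfer9_shape`      (transfer of the residue from `j` to `t₉`),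
* `exists_g9_unit_chart`           (`g₉ = Q(t₉)⁵ / t₉³` is a unit of the chart when `3` is).

`B = chart R S` with `B ⊆ V₁ ∩ V₂ ∩ V₃`, `Qep3 w B V₁ V₂ V₃`; `𝔪` ANY proper ideal of `B` with
`Through B 𝔪 V₂` (every closed point of the middle component, triple points and points over
`j = 0, 1728` included).  Inputs:

* (R-U)   `U, d ∈ B`, `U d = w ^ k`, `U⁻¹ ∈ V₁ ∩ V₃`, `v₂(U) = 6 kk`  (`U = U_m`, `6 kk = 12 (q - 1)`);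
* (R-RES) `hres` for `j`: `((j₂ - j₁) ^ (6 kk) - (j₁⁴ (j₁ - 1728)³) ^ kk · U) / U ∈ 𝔪_{V₂}`
          (`j₁ = j`, `j₂ = j_{q²}`);
* (R-9)   `h₁ = t₉`, `h₂ = t₉(t^{q²})` with `j_i · h_i⁹ Q(h_i) = (h_i + 9)³ (h_i³ + 243 Q(h_i))³`
          (`Haupt9.jq_mul_t9`), `j₁, j₂, 3⁻¹ ∈ B`, `h₁`, `Q(h₁)`, `j₁`, `j₁ - 1728` units of `V₂`
          (`Vinf9`), `h₂ - h₁ ∈ 𝔪_{V₂}`.

Output: `Eng.PrincipalAt B 𝔪 V₂`, generator `x = h₂ - h₁ = t₉(t^{q²}) - t₉`.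
-/

set_option autoImplicit false

noncomputable section

namespace Fermat.Agent.S36.H890

open Fermat.Agent.S36.Eng Fermat.Agent.S18.H138

variable {R F : Type*} [CommRing R] [Field F] [CharZero F] [Algebra R F]

/-- **Route R4 with `t₉`: the middle component is principal at every closed point.** -/
theorem principalAt_t9 (w : R) (S : Set F) (V₁ V₂ V₃ : ValuationSubring F)
    (hw0 : algebraMap R F w ≠ 0)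
    (hB₁ : ∀ b : chart R S, (b : F) ∈ V₁) (hB₂ : ∀ b : chart R S, (b : F) ∈ V₂)
    (hB₃ : ∀ b : chart R S, (b : F) ∈ V₃)
    (hqep : Qep3 w (chart R S) V₁ V₂ V₃)
    (𝔪 : Ideal (chart R S)) (h𝔪 : 𝔪 ≠ ⊤) (hthr : Through (chart R S) 𝔪 V₂)
    -- (R-U)
    (U d : chart R S) (k kk : ℕ) (hkk : 0 < kk)
    (hUd : U * d = algebraMap R (chart R S) w ^ k)
    (hU₁ : (U : F)⁻¹ ∈ V₁) (hU₃ : (U : F)⁻¹ ∈ V₃)
    (t : F) (ht : UnifAt V₂ t) (hU₂ : UnitAt V₂ ((U : F) * (t ^ (6 * kk))⁻¹))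
    -- (R-9)
    (j₁ j₂ h₁ h₂ : F)
    (hj₁B : j₁ ∈ chart R S) (hj₂B : j₂ ∈ chart R S) (h3 : (3 : F)⁻¹ ∈ chart R S)
    (hJ₁ : j₁ * (h₁ ^ 9 * (h₁ ^ 2 + 9 * h₁ + 27))
      = (h₁ + 9) ^ 3 * (h₁ ^ 3 + 243 * (h₁ ^ 2 + 9 * h₁ + 27)) ^ 3)
    (hJ₂ : j₂ * (h₂ ^ 9 * (h₂ ^ 2 + 9 * h₂ + 27))
      = (h₂ + 9) ^ 3 * (h₂ ^ 3 + 243 * (h₂ ^ 2 + 9 * h₂ + 27)) ^ 3)
    (hh₁ : UnitAt V₂ h₁) (hQ₁ : UnitAt V₂ (h₁ ^ 2 + 9 * h₁ + 27))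
    (hj₁ : UnitAt V₂ j₁) (hj₁' : UnitAt V₂ (j₁ - 1728))
    (hx : h₂ - h₁ ∈ V₂.nonunits)
    -- (R-RES)
    (hres : ((j₂ - j₁) ^ (6 * kk) - (j₁ ^ 4 * (j₁ - 1728) ^ 3) ^ kk * (U : F)) * (U : F)⁻¹
      ∈ V₂.nonunits) :
    PrincipalAt (chart R S) 𝔪 V₂ := by
  have hh₁B : h₁ ∈ chart R S := mem_chart_of_rel9 S hj₁B hJ₁
  have hh₂B : h₂ ∈ chart R S := mem_chart_of_rel9 S hj₂B hJ₂
  obtain ⟨g, g', hgF, hgg'⟩ := exists_g9_unit_chart S hj₁B h3 hJ₁ kk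
  have hg : g ∉ 𝔪 := not_mem_of_mul_eq_one hgg' 𝔪 h𝔪
  have hres' := Fermat.Agent.S36.H934.hres_transfer9_shape V₂ j₁ j₂ h₁ h₂ (U : F) kk hJ₁ hJ₂
    (H878.valuation_eq_one_of_unitAt V₂ hh₁) (H878.valuation_eq_one_of_unitAt V₂ hQ₁)
    (H878.valuation_eq_one_of_unitAt V₂ hj₁) (H878.valuation_eq_one_of_unitAt V₂ hj₁')
    (hB₂ ⟨h₂, hh₂B⟩) hx hres
  refine H878.principalAt_of_unit_self' w (chart R S) V₁ V₂ V₃ hw0 hB₁ hB₂ hB₃ hqep 𝔪 hthr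
    ((⟨h₂, hh₂B⟩ : chart R S) - ⟨h₁, hh₁B⟩) U d g k (6 * kk) (by omega) hUd hU₁ hU₃ t ht hU₂ hg ?_
  rw [hgF]
  exact hres'

end Fermat.Agent.S36.H890
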