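import Fermat.Agent.S36.H890.T9E
import Fermat.Agent.A2.Mod.H553.Vinf

/-!
# The level-`9` Gauss units are units of `V∞` (helper890, S36 cell REG, `q = 2`)

`V` the Gauss valuation ring of `F_{N,E}` (`A2.Mod.IsVinf P E N V`), `9 ∣ N`, ANY residue
characteristic.  The following elements of `F_{N,E}` and their inverses lie in `V`:

  `t₉`, `Q(t₉) = t₉² + 9 t₉ + 27`, `den₉(t₃, t₃(t³))`, `U₃(j, j₃)`, `U₃(j₃, j₉)`, `j`, `j - 1728`,

and they are nonzero (statements in the shape `f ≠ 0 ∧ f ∈ V ∧ f⁻¹ ∈ V` of `Eng.UnitAt`),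

and `t₃`, `t₃(t³)`, `num₉`, `W₃(j, j₃)`, `W₃(j₃, j₉)` lie in `V`.  (Units of `V_mid`, `V_FF`
at level `N q²` follow by `α (V∞') ⊆ V`.)
-/

set_option autoImplicit false
set_option synthInstance.maxHeartbeats 400000
set_option maxHeartbeats 1600000
set_option linter.unusedSectionVars false

noncomputable section

namespace Fermat.Agent.S36.H890

open ModularCurve HahnSeries Fermat.Agent.Lib.Haupt Fermat.Agent.A2.Mod
open Fermat.Agent.A2

variable (P : ValuationSubring Qb) (E : IntermediateField ℚ Qb) (N : ℕ)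

/-- The ring homomorphism `ℤ((t)) → E((t))`. -/
def castE : LaurentSeries ℤ →+* LaurentSeries E := (coeffEmb E).comp H708.castQ

theorem castE_apply (g : LaurentSeries ℤ) : castE E g = coeffEmb E (H708.castQ g) := rfl

theorem castE_eq (g : LaurentSeries ℤ) : castE E g = coeffMap (Int.castRingHom E) g :=
  coeffEmb_castQ_eq E g

theorem castE_t9 : castE E (t9 ℤ) = t9 E := by rw [castE_eq, coeffMap_t9]

theorem castE_t3 : castE E (t3 ℤ) = t3 E := by rw [castE_eq, coeffMap_t3]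

theorem castE_jq : castE E (jqModC ℤ) = jqModC E := by rw [castE_eq, coeffMap_jqModC]

theorem castE_qExpand (d : ℕ) [NeZero d] (g : LaurentSeries ℤ) :
    castE E (qExpand ℤ d g) = qExpand E d (castE E g) := by
  rw [castE_eq, castE_eq, coeffMap_qExpand]

variable {P E N}

/-- An element of `F_{N,E}` whose expansion is an integral series with a coefficient `1` is
nonzero. -/
theorem ne_zero_of_int {f : FE E N} {g : LaurentSeries ℤ} {k : ℤ}
    (hfg : (f : LaurentSeries E) = castE E g) (hk : g.coeff k = 1) : f ≠ 0 := by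
  intro h
  have h1 : (castE E g).coeff k = 1 := by
    rw [castE_eq, coeffMap_coeff, hk, map_one]
  rw [← hfg, h] at h1
  have h2 : (((0 : FE E N) : LaurentSeries E)).coeff k = 0 := rfl
  rw [h2] at h1
  exact zero_ne_one h1

/-- An element of `F_{N,E}` whose expansion is an integral series with a coefficient `1` is a
unit of `V∞` (in the form of `Eng.UnitAt`). -/
theorem unit_of_int {V : ValuationSubring (FE E N)} (hV : IsVinf P E N V) {f : FE E N}
    {g : LaurentSeries ℤ} {k : ℤ} (hfg : (f : LaurentSeries E) = castE E g)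
    (hk : g.coeff k = 1) : f ≠ 0 ∧ f ∈ V ∧ f⁻¹ ∈ V :=
  ⟨ne_zero_of_int hfg hk, H553.mem_of_int hV hfg, H553.inv_mem_of_int hV hfg (Or.inl hk)⟩

variable (P E N)

section Level9

variable {V : ValuationSubring (FE E N)} (hV : IsVinf P E N V) (h9 : 9 ∣ N)

include hV

theorem t9E_unit : t9E E N h9 ≠ 0 ∧ t9E E N h9 ∈ V ∧ (t9E E N h9)⁻¹ ∈ V :=
  unit_of_int hV (g := t9 ℤ) (k := -1) (by rw [coe_t9E, castE_t9]) (coeff_t9_neg_one ℤ)

theorem t9E_quad_unit :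
    t9E E N h9 ^ 2 + 9 * t9E E N h9 + 27 ≠ 0 ∧ t9E E N h9 ^ 2 + 9 * t9E E N h9 + 27 ∈ V
      ∧ (t9E E N h9 ^ 2 + 9 * t9E E N h9 + 27)⁻¹ ∈ V := by
  refine unit_of_int hV (g := t9 ℤ ^ 2 + 9 * t9 ℤ + 27) (k := -2) ?_
    (coeff_t9_quad_neg_two ℤ)
  rw [map_add, map_add, map_mul, map_pow, map_ofNat, map_ofNat, castE_t9]
  rfl

theorem t3E_mem : t3E E N (Dvd.dvd.trans (by norm_num) h9) ∈ V :=
  H553.mem_of_int hV (g := t3 ℤ) (by rw [coe_t3E, ← castE_apply, castE_t3])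

theorem t3eE_mem : t3eE E N h9 ∈ V :=
  H553.mem_of_int hV (g := qExpand ℤ 3 (t3 ℤ))
    (by rw [coe_t3eE, ← castE_apply, castE_qExpand, castE_t3])

theorem den9E_unit :
    h9den (t3E E N (Dvd.dvd.trans (by norm_num) h9)) (t3eE E N h9) ≠ 0
      ∧ h9den (t3E E N (Dvd.dvd.trans (by norm_num) h9)) (t3eE E N h9) ∈ V
      ∧ (h9den (t3E E N (Dvd.dvd.trans (by norm_num) h9)) (t3eE E N h9))⁻¹ ∈ V := by
  refine unit_of_int hV (g := h9den (t3 ℤ) (qExpand ℤ 3 (t3 ℤ))) (k := -4) ?_ (coeff_den9 ℤ)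
  rw [map_h9den, castE_qExpand, castE_t3]
  exact (map_h9den (FE E N).val.toRingHom _ _)

theorem u3E_unit :
    h9u3 (jE E N 1 (one_dvd N)) (jE E N 3 (Dvd.dvd.trans (by norm_num) h9)) ≠ 0
      ∧ h9u3 (jE E N 1 (one_dvd N)) (jE E N 3 (Dvd.dvd.trans (by norm_num) h9)) ∈ V
      ∧ (h9u3 (jE E N 1 (one_dvd N)) (jE E N 3 (Dvd.dvd.trans (by norm_num) h9)))⁻¹ ∈ V := by
  refine unit_of_int hV (g := h9u3 (jqModC ℤ) (qExpand ℤ 3 (jqModC ℤ))) (k := -9) ?_
    (coeff_u3 ℤ)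
  rw [map_h9u3, castE_qExpand, castE_jq, ← h9_coe_jE E N 3 (Dvd.dvd.trans (by norm_num) h9),
    ← h9_coe_jE_one E N]
  exact (map_h9u3 (FE E N).val.toRingHom _ _)

theorem u3eE_unit :
    h9u3 (jE E N 3 (Dvd.dvd.trans (by norm_num) h9)) (jE E N 9 h9) ≠ 0
      ∧ h9u3 (jE E N 3 (Dvd.dvd.trans (by norm_num) h9)) (jE E N 9 h9) ∈ V
      ∧ (h9u3 (jE E N 3 (Dvd.dvd.trans (by norm_num) h9)) (jE E N 9 h9))⁻¹ ∈ V := by
  refine unit_of_int hV (g := h9u3 (qExpand ℤ 3 (jqModC ℤ)) (qExpand ℤ 9 (jqModC ℤ)))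
    (k := -27) ?_ (coeff_u3e ℤ)
  rw [map_h9u3, castE_qExpand, castE_qExpand, castE_jq,
    ← h9_coe_jE E N 3 (Dvd.dvd.trans (by norm_num) h9), ← h9_coe_jE E N 9 h9]
  exact (map_h9u3 (FE E N).val.toRingHom _ _)

end Level9

section AnyLevel

variable {V : ValuationSubring (FE E N)} (hV : IsVinf P E N V)

include hV

theorem jE_one_unit :
    jE E N 1 (one_dvd N) ≠ 0 ∧ jE E N 1 (one_dvd N) ∈ V ∧ (jE E N 1 (one_dvd N))⁻¹ ∈ V :=
  unit_of_int hV (g := jqModC ℤ) (k := -1) (by rw [h9_coe_jE_one, castE_jq])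
    (coeff_jqModC_neg_one ℤ)

theorem jE_sub_1728_unit :
    jE E N 1 (one_dvd N) - 1728 ≠ 0 ∧ jE E N 1 (one_dvd N) - 1728 ∈ V
      ∧ (jE E N 1 (one_dvd N) - 1728)⁻¹ ∈ V := by
  refine unit_of_int hV (g := jqModC ℤ - 1728) (k := -1) ?_ (coeff_jq_sub_1728 ℤ)
  rw [map_sub, map_ofNat, castE_jq, ← h9_coe_jE_one E N]
  rfl

end AnyLevel

end Fermat.Agent.S36.H890
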