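import Fermat.Agent.S36.H890.Reg9
import Fermat.Agent.S36.H890.Vinf9
import Fermat.Agent.S36.H934.Congr9
import Fermat.Agent.S36.Mod3.H816.Table
import Fermat.Agent.S36.Mod3.H189.ChartLeaf

/-!
# MOD3 / REG, route R4 with `t₉`, CONCRETE (helper890): `PrincipalAt` on the middle component

Concrete objects of `Mod3/Spec.lean` (`Std`, `Objs`), with `9 ∣ M` (so `q ≠ 3`; under `NeatFor`
this is the case `q = 2`).  `principalAt_mid_t9` discharges the whole block (R-9) of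
`principalAt_t9`:

* `h₁ = t₉` at level `M q²`, `h₂ = γ(t₉)`, `γ = β ∘ β` (`t ↦ t^{q²}`);
* `j, j_{q²}, 3⁻¹ ∈ chart R {x3E}`;
* `t₉`, `Q(t₉)`, `j`, `j - 1728` are units of `V₂` (Gauss units of `V∞(M q)`, pushed by `α`);
* `γ(t₉) - t₉ ∈ 𝔪_{V₂}` (helper934 `t9_congr` + helper816 `IsMid.gen_cong` at `d = 1, 3, 9`).

What is left as hypotheses is EXACTLY (R-U) + (R-RES) of LEAFREG PLAN v2 (the same two inputs as
for `q` odd) and `Qep3`, `chart ⊆ V_i`.
-/

set_option autoImplicit false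
set_option linter.style.haveILetI false
set_option linter.unusedSectionVars false
set_option synthInstance.maxHeartbeats 400000
set_option maxHeartbeats 1600000

noncomputable section

namespace Fermat.Agent.S36.H890

open ModularCurve
open Fermat.Agent Fermat.Agent.A2.Mod Fermat.Agent.S36.Eng
open Fermat.Agent.S18.H138 (chart)
open Fermat.Agent.S36.H816

/-! ## Generalities -/

/-- `q ∈ 𝔪_V`, `n` prime to `q` ⟹ `n⁻¹ ∈ V`. -/
theorem natCast_inv_mem_of_coprime {L : Type*} [Field L] (V : ValuationSubring L) {q n : ℕ}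
    (hq : ((q : ℕ) : L) ∈ V.nonunits) (hqn : Nat.Coprime q n) : ((n : ℕ) : L)⁻¹ ∈ V := by
  by_contra hn
  have hnV : ((n : ℕ) : L) ∈ V.nonunits := by
    rw [ValuationSubring.mem_nonunits_iff_or]
    by_cases h0 : ((n : ℕ) : L) = 0
    · exact Or.inl h0
    · exact Or.inr hn
  have h1 : (1 : L) = ((Nat.gcdA q n : ℤ) : L) * ((q : ℕ) : L)
      + ((Nat.gcdB q n : ℤ) : L) * ((n : ℕ) : L) := by
    have h := Nat.gcd_eq_gcd_ab q n
    rw [hqn] at h
    have h' := congrArg (fun z : ℤ => (z : L)) h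
    simp only [Nat.cast_one, Int.cast_one, Int.cast_add, Int.cast_mul, Int.cast_natCast] at h'
    rw [h']
    ring
  have h2 : (1 : L) ∈ V.nonunits := by
    rw [h1]
    exact add_mem_nonunits V (mul_mem_nonunits_right V (intCast_mem V _) hq)
      (mul_mem_nonunits_right V (intCast_mem V _) hnV)
  rw [ValuationSubring.mem_nonunits_iff, map_one] at h2
  exact lt_irrefl _ h2

/-! ## The map `γ = β ∘ β : F_M → F_{M q²}` -/

section Gamma

variable (E : IntermediateField ℚ A2.Qb) (M q : ℕ) [NeZero M] [NeZero q] [NeZero (M * q)]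

/-- `γ = β ∘ β : F_M → F_{M q²}`, `t ↦ t^{q²}`. -/
def gamma9 : FE E M →ₐ[E] FE E (M * q * q) := (βE E (M * q) q).comp (βE E M q)

theorem gamma9_apply (f : FE E M) : gamma9 E M q f = βE E (M * q) q (βE E M q f) := rfl

theorem gamma9_jE (d : ℕ) [NeZero d] (hd : d ∣ M) :
    haveI : NeZero (d * q * q) :=
      ⟨mul_ne_zero (mul_ne_zero (NeZero.ne d) (NeZero.ne q)) (NeZero.ne q)⟩
    gamma9 E M q (jE E M d hd)
      = jE E (M * q * q) (d * q * q) (mul_dvd_mul_right (mul_dvd_mul_right hd q) q) := by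
  haveI : NeZero (d * q) := ⟨mul_ne_zero (NeZero.ne d) (NeZero.ne q)⟩
  rw [gamma9_apply, H553.βE_jE E M q d hd, H553.βE_jE E (M * q) q (d * q)]

end Gamma

/-! ## Transport of the relations along a ring homomorphism -/

section Transport

variable {S T : Type*} [CommRing S] [CommRing T] (f : S →+* T)

theorem map_lin_u3 {x y a : S} (h : h9u3 x y * a = h9w3 x y) :
    h9u3 (f x) (f y) * f a = h9w3 (f x) (f y) := by
  rw [← map_h9u3, ← map_h9w3, ← map_mul, h]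

theorem map_lin_den {A B t : S} (h : t * h9den A B = h9num A B) :
    f t * h9den (f A) (f B) = h9num (f A) (f B) := by
  rw [← map_h9den, ← map_h9num, ← map_mul, h]

theorem map_rel9 {j t : S}
    (h : j * (t ^ 9 * (t ^ 2 + 9 * t + 27))
      = (t + 9) ^ 3 * (t ^ 3 + 243 * (t ^ 2 + 9 * t + 27)) ^ 3) :
    f j * (f t ^ 9 * (f t ^ 2 + 9 * f t + 27))
      = (f t + 9) ^ 3 * (f t ^ 3 + 243 * (f t ^ 2 + 9 * f t + 27)) ^ 3 := by
  have h' := congrArg f h
  simpa only [map_mul, map_pow, map_add, map_ofNat] using h'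

end Transport

/-! ## The middle valuation ring -/

section Main

variable {P : ValuationSubring A2.Qb} {E : IntermediateField ℚ A2.Qb} {M q : ℕ}
  [NeZero M] [NeZero q] [NeZero (M * q)] {w : A2.RE P E}
  {V₁' V₂' : ValuationSubring (FE E (M * q))}
  {V₁ V₂ V₃ : ValuationSubring (FE E (M * q * q))}
  {W' : FE E (M * q) ≃ₐ[E] FE E (M * q)}
  {W : FE E (M * q * q) ≃ₐ[E] FE E (M * q * q)}

/-- `Objs.V₂` is a middle valuation ring in the sense of helper816. -/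
theorem isMid_of_objs (hStd : Mod3.Std P E M q w)
    (hO : Mod3.Objs P E M q V₁' V₂' V₁ V₂ V₃ W' W) : IsMid V₁' V₂ := by
  have hS : Setting P E M q w := Mod3.H816.setting_of_std hStd
  haveI := hS.dvr
  have hcα : ∀ g : FE E (M * q), heckeAlphaBar E (M * q) q g ∈ V₂ ↔ g ∈ V₁' := fun g => by
    have h := hO.mid
    have h2 : g ∈ V₂.comap (αE E (M * q) q : FE E (M * q) →+* FE E (M * q * q)) ↔ g ∈ V₁' := by
      rw [h]
    rw [ValuationSubring.mem_comap] at h2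
    exact h2
  exact isMid_of_ne hcα hS hO.vinf' hO.fricke' hO.vinf hO.mid_ne

/-- A unit of `V₁' = V∞(M q)` is a unit of `V₂` (via `α`). -/
theorem alpha_unitAt (hmid : IsMid V₁' V₂) {f : FE E (M * q)}
    (hf : f ≠ 0 ∧ f ∈ V₁' ∧ f⁻¹ ∈ V₁') : UnitAt V₂ (αE E (M * q) q f) := by
  refine ⟨?_, (hmid.comap_alpha f).mpr hf.2.1, ?_⟩
  · exact (map_ne_zero_iff _ (αE E (M * q) q).toRingHom.injective).mpr hf.1
  · rw [← map_inv₀]
    exact (hmid.comap_alpha f⁻¹).mpr hf.2.2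

/-- `γ(t₉) - t₉ ∈ 𝔪_{V₂}`, and `γ(t₉) ∈ V₂`. -/
theorem gamma9_t9E_congr (hStd : Mod3.Std P E M q w)
    (hO : Mod3.Objs P E M q V₁' V₂' V₁ V₂ V₃ W' W) (h9 : 9 ∣ M) :
    gamma9 E M q (t9E E M h9) ∈ V₂ ∧
      gamma9 E M q (t9E E M h9)
        - t9E E (M * q * q) ((h9.trans (dvd_mul_right M q)).trans (dvd_mul_right _ q))
        ∈ V₂.nonunits := by
  have hS : Setting P E M q w := Mod3.H816.setting_of_std hStd
  haveI := hS.dvr
  have hmid : IsMid V₁' V₂ := isMid_of_objs hStd hO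
  have h3 : 3 ∣ M := Dvd.dvd.trans (by norm_num) h9
  have h9' : 9 ∣ M * q := h9.trans (dvd_mul_right M q)
  have h9'' : 9 ∣ M * q * q := h9'.trans (dvd_mul_right _ q)
  have h3' : 3 ∣ M * q := h3.trans (dvd_mul_right M q)
  have h3'' : 3 ∣ M * q * q := h3'.trans (dvd_mul_right _ q)
  haveI : NeZero (1 * q * q) := ⟨mul_ne_zero (mul_ne_zero one_ne_zero (NeZero.ne q)) (NeZero.ne q)⟩
  haveI : NeZero (3 * q * q) :=
    ⟨mul_ne_zero (mul_ne_zero (by norm_num) (NeZero.ne q)) (NeZero.ne q)⟩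
  haveI : NeZero (9 * q * q) :=
    ⟨mul_ne_zero (mul_ne_zero (by norm_num) (NeZero.ne q)) (NeZero.ne q)⟩
  -- the generators
  have hj := hmid.jE_mem_of_dvd hO.vinf' 1 (one_dvd _)
  have hj3 := hmid.jE_mem_of_dvd hO.vinf' 3 h3'
  have hj9 := hmid.jE_mem_of_dvd hO.vinf' 9 h9'
  have c1 := hmid.gen_cong hS hO.vinf' hO.fricke' 1 (one_dvd M)
  have c3 := hmid.gen_cong hS hO.vinf' hO.fricke' 3 h3
  have c9 := hmid.gen_cong hS hO.vinf' hO.fricke' 9 h9
  -- the Gauss units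
  have hU := alpha_unitAt hmid (u3E_unit P E (M * q) hO.vinf' h9')
  have hUe := alpha_unitAt hmid (u3eE_unit P E (M * q) hO.vinf' h9')
  have hden := alpha_unitAt hmid (den9E_unit P E (M * q) hO.vinf' h9')
  have eU : αE E (M * q) q (h9u3 (jE E (M * q) 1 (one_dvd _)) (jE E (M * q) 3 h3'))
      = h9u3 (jE E (M * q * q) 1 (one_dvd _)) (jE E (M * q * q) 3 h3'') := by
    have h := map_h9u3 (αE E (M * q) q : FE E (M * q) →+* FE E (M * q * q))
      (jE E (M * q) 1 (one_dvd _)) (jE E (M * q) 3 h3')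
    rw [RingHom.coe_coe, H553.αE_jE, H553.αE_jE] at h
    exact h
  have eUe : αE E (M * q) q (h9u3 (jE E (M * q) 3 h3') (jE E (M * q) 9 h9'))
      = h9u3 (jE E (M * q * q) 3 h3'') (jE E (M * q * q) 9 h9'') := by
    have h := map_h9u3 (αE E (M * q) q : FE E (M * q) →+* FE E (M * q * q))
      (jE E (M * q) 3 h3') (jE E (M * q) 9 h9')
    rw [RingHom.coe_coe, H553.αE_jE, H553.αE_jE] at h
    exact h
  have et3 : αE E (M * q) q (t3E E (M * q) h3') = t3E E (M * q * q) h3'' :=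
    Subtype.ext (coe_heckeAlphaBar (M * q) q _)
  have et3e : αE E (M * q) q (t3eE E (M * q) h9') = t3eE E (M * q * q) h9'' :=
    Subtype.ext (coe_heckeAlphaBar (M * q) q _)
  have eden : αE E (M * q) q (h9den (t3E E (M * q) h3') (t3eE E (M * q) h9'))
      = h9den (t3E E (M * q * q) h3'') (t3eE E (M * q * q) h9'') := by
    have h := map_h9den (αE E (M * q) q : FE E (M * q) →+* FE E (M * q * q))
      (t3E E (M * q) h3') (t3eE E (M * q) h9')
    rw [RingHom.coe_coe, et3, et3e] at h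
    exact h
  rw [eU] at hU
  rw [eUe] at hUe
  rw [eden] at hden
  -- the relations
  have l1 := t3E_lin E (M * q * q) h3''
  have l2 := t3eE_lin E (M * q * q) h9''
  have l3 := t9E_lin E (M * q * q) h9''
  have l1' : h9u3 (jE E (M * q * q) (1 * q * q)
        (mul_dvd_mul_right (mul_dvd_mul_right (one_dvd M) q) q))
        (jE E (M * q * q) (3 * q * q) (mul_dvd_mul_right (mul_dvd_mul_right h3 q) q))
        * gamma9 E M q (t3E E M h3)
      = h9w3 (jE E (M * q * q) (1 * q * q)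
          (mul_dvd_mul_right (mul_dvd_mul_right (one_dvd M) q) q))
        (jE E (M * q * q) (3 * q * q) (mul_dvd_mul_right (mul_dvd_mul_right h3 q) q)) := by
    have h := map_lin_u3 (gamma9 E M q : FE E M →+* FE E (M * q * q)) (t3E_lin E M h3)
    rw [RingHom.coe_coe, gamma9_jE, gamma9_jE] at h
    exact h
  have l2' : h9u3 (jE E (M * q * q) (3 * q * q)
        (mul_dvd_mul_right (mul_dvd_mul_right h3 q) q))
        (jE E (M * q * q) (9 * q * q) (mul_dvd_mul_right (mul_dvd_mul_right h9 q) q))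
        * gamma9 E M q (t3eE E M h9)
      = h9w3 (jE E (M * q * q) (3 * q * q)
          (mul_dvd_mul_right (mul_dvd_mul_right h3 q) q))
        (jE E (M * q * q) (9 * q * q) (mul_dvd_mul_right (mul_dvd_mul_right h9 q) q)) := by
    have h := map_lin_u3 (gamma9 E M q : FE E M →+* FE E (M * q * q)) (t3eE_lin E M h9)
    rw [RingHom.coe_coe, gamma9_jE, gamma9_jE] at h
    exact h
  have l3' : gamma9 E M q (t9E E M h9)
        * h9den (gamma9 E M q (t3E E M h3)) (gamma9 E M q (t3eE E M h9))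
      = h9num (gamma9 E M q (t3E E M h3)) (gamma9 E M q (t3eE E M h9)) :=
    map_lin_den (gamma9 E M q : FE E M →+* FE E (M * q * q)) (t9E_lin E M h9)
  obtain ⟨-, h2, h3c⟩ := Fermat.Agent.S36.H934.t9_congr V₂ hj hj3 hj9 c1 c3 c9
    (H878.valuation_eq_one_of_unitAt V₂ hU) (H878.valuation_eq_one_of_unitAt V₂ hUe)
    (H878.valuation_eq_one_of_unitAt V₂ hden) l1 l2 l3 l1' l2' l3'
  exact ⟨h2, h3c⟩

/-- `3⁻¹ ∈ chart R S` at level `M q²` when `3 ∣ M` (then `q ≠ 3`). -/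
theorem three_inv_mem_chart (hStd : Mod3.Std P E M q w) (h3 : 3 ∣ M)
    (S : Set (FE E (M * q * q))) :
    (3 : FE E (M * q * q))⁻¹ ∈ chart (A2.RE P E) S := by
  have hS : Setting P E M q w := Mod3.H816.setting_of_std hStd
  haveI := hS.dvr
  have hq3 : q ≠ 3 := by
    rintro rfl
    exact hStd.q_not_dvd h3
  have hcop : Nat.Coprime q 3 := (Nat.coprime_primes hStd.q_prime Nat.prime_three).2 hq3
  have hP : ((3 : ℕ) : A2.Qb)⁻¹ ∈ P := natCast_inv_mem_of_coprime P hStd.lies_over hcop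
  have hE : ((3 : E))⁻¹ ∈ A2.RE P E := by
    show algebraMap E A2.Qb ((3 : E))⁻¹ ∈ P
    rw [map_inv₀, map_ofNat]
    rwa [Nat.cast_ofNat] at hP
  have h := Subalgebra.algebraMap_mem (chart (A2.RE P E) S) (⟨(3 : E)⁻¹, hE⟩ : A2.RE P E)
  rw [H13.algebraMap_RE_eq] at h
  rwa [map_inv₀, map_ofNat] at h

/-- **MOD3 / REG, route R4 with `t₉`, concrete.**  With `9 ∣ M` (case `q = 2` of `NeatFor`), the
middle component of the finite chart is principal at EVERY closed point through which it passes,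
given (R-U) and (R-RES) of LEAFREG PLAN v2 (`U = U_m`, `6 kk = 12 (q - 1)`). -/
theorem principalAt_mid_t9 (hStd : Mod3.Std P E M q w)
    (hO : Mod3.Objs P E M q V₁' V₂' V₁ V₂ V₃ W' W) (h9 : 9 ∣ M)
    (hB₁ : ∀ b : chart (A2.RE P E) ({Mod3.x3E E M q} : Set (FE E (M * q * q))),
      (b : FE E (M * q * q)) ∈ V₁)
    (hB₂ : ∀ b : chart (A2.RE P E) ({Mod3.x3E E M q} : Set (FE E (M * q * q))),
      (b : FE E (M * q * q)) ∈ V₂)
    (hB₃ : ∀ b : chart (A2.RE P E) ({Mod3.x3E E M q} : Set (FE E (M * q * q))),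
      (b : FE E (M * q * q)) ∈ V₃)
    (hqep : Qep3 w (chart (A2.RE P E) ({Mod3.x3E E M q} : Set (FE E (M * q * q)))) V₁ V₂ V₃)
    (𝔪 : Ideal (chart (A2.RE P E) ({Mod3.x3E E M q} : Set (FE E (M * q * q)))))
    (h𝔪 : 𝔪 ≠ ⊤) (hthr : Through _ 𝔪 V₂)
    -- (R-U)
    (U d : chart (A2.RE P E) ({Mod3.x3E E M q} : Set (FE E (M * q * q)))) (k kk : ℕ)
    (hkk : 0 < kk)
    (hUd : U * d = algebraMap (A2.RE P E) _ w ^ k)
    (hU₁ : (U : FE E (M * q * q))⁻¹ ∈ V₁) (hU₃ : (U : FE E (M * q * q))⁻¹ ∈ V₃)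
    (t : FE E (M * q * q)) (ht : UnifAt V₂ t)
    (hU₂ : UnitAt V₂ ((U : FE E (M * q * q)) * (t ^ (6 * kk))⁻¹))
    -- (R-RES)
    (hres : ((Mod3.jqq E M q - Mod3.j1 E M q) ^ (6 * kk)
        - (Mod3.j1 E M q ^ 4 * (Mod3.j1 E M q - 1728) ^ 3) ^ kk * (U : FE E (M * q * q)))
          * (U : FE E (M * q * q))⁻¹ ∈ V₂.nonunits) :
    PrincipalAt (chart (A2.RE P E) ({Mod3.x3E E M q} : Set (FE E (M * q * q)))) 𝔪 V₂ := by
  have hS : Setting P E M q w := Mod3.H816.setting_of_std hStd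
  haveI := hS.dvr
  have hmid : IsMid V₁' V₂ := isMid_of_objs hStd hO
  have h3 : 3 ∣ M := Dvd.dvd.trans (by norm_num) h9
  have h9' : 9 ∣ M * q := h9.trans (dvd_mul_right M q)
  have h9'' : 9 ∣ M * q * q := h9'.trans (dvd_mul_right _ q)
  haveI : NeZero (1 * q * q) := ⟨mul_ne_zero (mul_ne_zero one_ne_zero (NeZero.ne q)) (NeZero.ne q)⟩
  haveI : NeZero (q * q) := ⟨mul_ne_zero (NeZero.ne q) (NeZero.ne q)⟩
  obtain ⟨-, hx⟩ := gamma9_t9E_congr hStd hO h9
  have hw0 : algebraMap (A2.RE P E) (FE E (M * q * q)) w ≠ 0 := by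
    rw [H13.algebraMap_RE_eq]
    refine (map_ne_zero_iff _ (algebraMap E (FE E (M * q * q))).injective).mpr ?_
    intro h
    exact hStd.unif.ne_zero (Subtype.ext h)
  have hj₁B := Mod3.H189.j1_mem_chart P E M q hStd.q_prime
  have hj₂B := Mod3.H189.jqq_mem_chart' P E M q hStd.q_prime
  have h3B := three_inv_mem_chart hStd h3 ({Mod3.x3E E M q} : Set (FE E (M * q * q)))
  have hJ₁ : Mod3.j1 E M q
        * (t9E E (M * q * q) h9'' ^ 9
          * (t9E E (M * q * q) h9'' ^ 2 + 9 * t9E E (M * q * q) h9'' + 27))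
      = (t9E E (M * q * q) h9'' + 9) ^ 3
        * (t9E E (M * q * q) h9'' ^ 3
          + 243 * (t9E E (M * q * q) h9'' ^ 2 + 9 * t9E E (M * q * q) h9'' + 27)) ^ 3 :=
    jE_mul_t9E E (M * q * q) h9''
  have hJ₂ : Mod3.jqq E M q
        * (gamma9 E M q (t9E E M h9) ^ 9
          * (gamma9 E M q (t9E E M h9) ^ 2 + 9 * gamma9 E M q (t9E E M h9) + 27))
      = (gamma9 E M q (t9E E M h9) + 9) ^ 3
        * (gamma9 E M q (t9E E M h9) ^ 3
          + 243 * (gamma9 E M q (t9E E M h9) ^ 2 + 9 * gamma9 E M q (t9E E M h9) + 27)) ^ 3 := by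
    have h := map_rel9 (gamma9 E M q : FE E M →+* FE E (M * q * q)) (jE_mul_t9E E M h9)
    rw [RingHom.coe_coe, gamma9_jE,
      jE_congr (M * q * q) (show 1 * q * q = q * q by rw [one_mul]) _
        (Dvd.intro_left M (mul_assoc M q q).symm)] at h
    exact h
  have hh₁ : UnitAt V₂ (t9E E (M * q * q) h9'') := by
    have h := alpha_unitAt hmid (t9E_unit P E (M * q) hO.vinf' h9')
    rwa [αE_t9E] at h
  have hQ₁ : UnitAt V₂
      (t9E E (M * q * q) h9'' ^ 2 + 9 * t9E E (M * q * q) h9'' + 27) := by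
    have h := alpha_unitAt hmid (t9E_quad_unit P E (M * q) hO.vinf' h9')
    rwa [map_add, map_add, map_mul, map_pow, map_ofNat, map_ofNat, αE_t9E] at h
  have hj₁ : UnitAt V₂ (Mod3.j1 E M q) := by
    have h := alpha_unitAt hmid (jE_one_unit P E (M * q) hO.vinf')
    rwa [H553.αE_jE] at h
  have hj₁' : UnitAt V₂ (Mod3.j1 E M q - 1728) := by
    have h := alpha_unitAt hmid (jE_sub_1728_unit P E (M * q) hO.vinf')
    rwa [map_sub, map_ofNat, H553.αE_jE] at h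
  exact principalAt_t9 w _ V₁ V₂ V₃ hw0 hB₁ hB₂ hB₃ hqep 𝔪 h𝔪 hthr U d k kk hkk hUd hU₁ hU₃
    t ht hU₂ (Mod3.j1 E M q) (Mod3.jqq E M q) (t9E E (M * q * q) h9'')
    (gamma9 E M q (t9E E M h9)) hj₁B hj₂B h3B hJ₁ hJ₂ hh₁ hQ₁ hj₁ hj₁' hx hres

/-- **The same in the delivered shapes** of (R-U) (helper356 `PartRegU`, `U₀ = U_m`) and (R-RES)
(helper922 `h922_hres_mid` at `M₁ = M q`, `V = V₂`): the finite half `regular_f` of
`Mod3.PartReg` (middle disjunct) when `9 ∣ M`. -/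
theorem principalAt_mid_t9_conc (hStd : Mod3.Std P E M q w)
    (hO : Mod3.Objs P E M q V₁' V₂' V₁ V₂ V₃ W' W) (h9 : 9 ∣ M)
    (hB₁ : ∀ b : chart (A2.RE P E) ({Mod3.x3E E M q} : Set (FE E (M * q * q))),
      (b : FE E (M * q * q)) ∈ V₁)
    (hB₂ : ∀ b : chart (A2.RE P E) ({Mod3.x3E E M q} : Set (FE E (M * q * q))),
      (b : FE E (M * q * q)) ∈ V₂)
    (hB₃ : ∀ b : chart (A2.RE P E) ({Mod3.x3E E M q} : Set (FE E (M * q * q))),
      (b : FE E (M * q * q)) ∈ V₃)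
    (hqep : Qep3 w (chart (A2.RE P E) ({Mod3.x3E E M q} : Set (FE E (M * q * q)))) V₁ V₂ V₃)
    (hunif : ∃ t : FE E (M * q * q), UnifAt V₂ t)
    -- (R-U)
    (U₀ : FE E (M * q * q)) (k : ℕ)
    (hpair : ∃ U d : chart (A2.RE P E) ({Mod3.x3E E M q} : Set (FE E (M * q * q))),
      (U : FE E (M * q * q)) = U₀ ∧ U * d = algebraMap (A2.RE P E) _ w ^ k)
    (hU₁ : U₀⁻¹ ∈ V₁) (hU₃ : U₀⁻¹ ∈ V₃)
    (hU₂ : ∀ t : FE E (M * q * q), UnifAt V₂ t → UnitAt V₂ (U₀ * (t ^ (12 * (q - 1)))⁻¹))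
    -- (R-RES)
    (hqM : q ∣ M * q)
    (hres : ((βE E (M * q) q (jE E (M * q) q hqM)
          - αE E (M * q) q (jE E (M * q) 1 (one_dvd _))) ^ (12 * (q - 1))
        - αE E (M * q) q ((jE E (M * q) 1 (one_dvd _) ^ 4
            * (jE E (M * q) 1 (one_dvd _) - 1728) ^ 3) ^ (2 * (q - 1))) * U₀) * U₀⁻¹
      ∈ V₂.nonunits)
    (𝔪 : Ideal (chart (A2.RE P E) ({Mod3.x3E E M q} : Set (FE E (M * q * q)))))
    (h𝔪 : 𝔪.IsMaximal) (hthr : Through _ 𝔪 V₂) :
    PrincipalAt (chart (A2.RE P E) ({Mod3.x3E E M q} : Set (FE E (M * q * q)))) 𝔪 V₂ := by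
  obtain ⟨t, ht⟩ := hunif
  obtain ⟨U, d, hUeq, hUd⟩ := hpair
  have hq1 : 0 < 2 * (q - 1) := by
    have := hStd.q_prime.two_le
    omega
  have e6 : 6 * (2 * (q - 1)) = 12 * (q - 1) := by ring
  haveI : NeZero (q * q) := ⟨mul_ne_zero (NeZero.ne q) (NeZero.ne q)⟩
  have ejqq : βE E (M * q) q (jE E (M * q) q hqM) = Mod3.jqq E M q := by
    rw [H553.βE_jE E (M * q) q q hqM]
    rfl
  have ej1 : αE E (M * q) q (jE E (M * q) 1 (one_dvd _)) = Mod3.j1 E M q := by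
    rw [H553.αE_jE E (M * q) q 1 (one_dvd _)]
    rfl
  refine principalAt_mid_t9 hStd hO h9 hB₁ hB₂ hB₃ hqep 𝔪 h𝔪.ne_top hthr U d k (2 * (q - 1)) hq1
    hUd (by rw [hUeq]; exact hU₁) (by rw [hUeq]; exact hU₃) t ht
    (by rw [hUeq, e6]; exact hU₂ t ht) ?_
  rw [hUeq, e6]
  rw [ejqq, map_pow, map_mul, map_pow, map_pow, map_sub, map_ofNat, ej1] at hres
  exact hres

end Main

end Fermat.Agent.S36.H890
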