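import Fermat.Agent.S36.H890.Gauss9
import Fermat.Agent.A2.Mod.Spec

/-!
# The level-`9` Hauptmodul in the function fields `F_{N,E}` (helper890, S36 cell REG, `q = 2`)

`A2.Mod` vocabulary: `FE E N = E(j_d : d ∣ N) ⊆ E((t))`.  For `9 ∣ N`:

* `t3E`, `t3eE`, `t9E : FE E N` — `t₃`, `t₃(t³)`, `t₉`, with INTEGRAL `t`-expansions
  (`coe_t9E_int` …: `= coeffEmb E (castQ g)`, `g : LaurentSeries ℤ`, the shape of
  `A2.Mod.H553.mem_of_int` / `inv_mem_of_int`);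
* the relations in `FE E N`: `jE_mul_t9E` (`j t₉⁹ Q = (t₉ + 9)³ (t₉³ + 243 Q)³`),
  `t3E_mul_quad`, `t3eE_eq`, and `l1`, `l2`, `l3` of helper934's `Congr9.t9_congr`
  (`t3E_lin`, `t3eE_lin`, `t9E_lin`);
* `αE_t9E`, `coe_βE_t9E` : the images under the two degeneracy maps.
-/

set_option autoImplicit false
set_option synthInstance.maxHeartbeats 400000
set_option maxHeartbeats 1600000
set_option linter.unusedSectionVars false

noncomputable section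

namespace Fermat.Agent.S36.H890

open ModularCurve HahnSeries Fermat.Agent.Lib.Haupt Fermat.Agent.A2.Mod
open Fermat.Agent.A2

variable (E : IntermediateField ℚ Qb) (N : ℕ)

/-! ## Membership -/

theorem t3_mem_laurentBaseChange (L : Type*) [Field L] [Algebra ℚ L] (M : ℕ) (h3 : 3 ∣ M) :
    t3 L ∈ laurentBaseChange L (modularFunctionFieldFull M) := by
  have h := coeffEmb_mem_laurentBaseChange L (t3_mem_full M h3)
  rwa [coeffEmb, coeffMap_t3] at h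

theorem qExpand_t3_mem_laurentBaseChange (L : Type*) [Field L] [Algebra ℚ L] (M : ℕ)
    (h9 : 9 ∣ M) :
    qExpand L 3 (t3 L) ∈ laurentBaseChange L (modularFunctionFieldFull M) := by
  have h0 : qExpand ℚ 3 (t3 ℚ) ∈ modularFunctionFieldFull M := qExpand_t3_mem_fullC ℚ M h9
  have h := coeffEmb_mem_laurentBaseChange L h0
  rwa [coeffEmb, coeffMap_qExpand, coeffMap_t3] at h

/-- `t₃ ∈ F_{N,E}`, `3 ∣ N`. -/
def t3E (h3 : 3 ∣ N) : FE E N := ⟨t3 E, t3_mem_laurentBaseChange E N h3⟩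

/-- `t₃(t³) ∈ F_{N,E}`, `9 ∣ N`. -/
def t3eE (h9 : 9 ∣ N) : FE E N := ⟨qExpand E 3 (t3 E), qExpand_t3_mem_laurentBaseChange E N h9⟩

/-- `t₉ ∈ F_{N,E}`, `9 ∣ N`. -/
def t9E (h9 : 9 ∣ N) : FE E N := ⟨t9 E, t9_mem_laurentBaseChange E N h9⟩

theorem coe_t3E (h3 : 3 ∣ N) : ((t3E E N h3 : FE E N) : LaurentSeries E) = t3 E := rfl

theorem coe_t3eE (h9 : 9 ∣ N) :
    ((t3eE E N h9 : FE E N) : LaurentSeries E) = qExpand E 3 (t3 E) := rfl

theorem coe_t9E (h9 : 9 ∣ N) : ((t9E E N h9 : FE E N) : LaurentSeries E) = t9 E := rfl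

/-! ## Integral expansions -/

theorem coeffEmb_castQ_eq (g : LaurentSeries ℤ) :
    coeffEmb E (H708.castQ g) = coeffMap (Int.castRingHom E) g := by
  rw [coeffEmb, H708.castQ, coeffMap_coeffMap]
  exact coeffMap_congr (RingHom.ext_int _ _) g

theorem coe_t3E_int (h3 : 3 ∣ N) :
    ((t3E E N h3 : FE E N) : LaurentSeries E) = coeffEmb E (H708.castQ (t3 ℤ)) := by
  rw [coe_t3E, coeffEmb_castQ_eq, coeffMap_t3]

theorem coe_t3eE_int (h9 : 9 ∣ N) :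
    ((t3eE E N h9 : FE E N) : LaurentSeries E)
      = coeffEmb E (H708.castQ (qExpand ℤ 3 (t3 ℤ))) := by
  rw [coe_t3eE, coeffEmb_castQ_eq, coeffMap_qExpand, coeffMap_t3]

theorem coe_t9E_int (h9 : 9 ∣ N) :
    ((t9E E N h9 : FE E N) : LaurentSeries E) = coeffEmb E (H708.castQ (t9 ℤ)) := by
  rw [coe_t9E, coeffEmb_castQ_eq, coeffMap_t9]

theorem h9_coe_jE (d : ℕ) [NeZero d] (hd : d ∣ N) :
    ((jE E N d hd : FE E N) : LaurentSeries E) = qExpand E d (jqModC E) := by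
  show coeffEmb E (qExpand ℚ d jq) = _
  rw [coeffEmb, coeffMap_qExpand, ← jqModC_rat, coeffMap_jqModC]

theorem h9_coe_jE_one :
    ((jE E N 1 (one_dvd N) : FE E N) : LaurentSeries E) = jqModC E := by
  rw [h9_coe_jE, qExpand_one_apply]

/-! ## Relations in `F_{N,E}` -/

/-- `j · t₉⁹ Q(t₉) = (t₉ + 9)³ (t₉³ + 243 Q(t₉))³` in `F_{N,E}`. -/
theorem jE_mul_t9E (h9 : 9 ∣ N) :
    jE E N 1 (one_dvd N)
        * (t9E E N h9 ^ 9 * (t9E E N h9 ^ 2 + 9 * t9E E N h9 + 27))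
      = (t9E E N h9 + 9) ^ 3
        * (t9E E N h9 ^ 3 + 243 * (t9E E N h9 ^ 2 + 9 * t9E E N h9 + 27)) ^ 3 := by
  apply Subtype.ext
  have h := jq_mul_t9 E
  rw [← h9_coe_jE_one E N, ← coe_t9E E N h9] at h
  exact h

/-- `t₃ · Q(t₉) = t₉³` in `F_{N,E}`. -/
theorem t3E_mul_quad (h9 : 9 ∣ N) :
    t3E E N (Dvd.dvd.trans (by norm_num) h9) * (t9E E N h9 ^ 2 + 9 * t9E E N h9 + 27)
      = t9E E N h9 ^ 3 :=
  Subtype.ext (t9_cube E)

/-- `t₃(t³) = t₉ · Q(t₉)` in `F_{N,E}`. -/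
theorem t3eE_eq (h9 : 9 ∣ N) :
    t3eE E N h9 = t9E E N h9 * (t9E E N h9 ^ 2 + 9 * t9E E N h9 + 27) :=
  Subtype.ext (t3e_eq E)

/-- `l3` : `t₉ · den₉(t₃, t₃(t³)) = num₉(t₃, t₃(t³))` in `F_{N,E}`. -/
theorem t9E_lin (h9 : 9 ∣ N) :
    t9E E N h9 * h9den (t3E E N (Dvd.dvd.trans (by norm_num) h9)) (t3eE E N h9)
      = h9num (t3E E N (Dvd.dvd.trans (by norm_num) h9)) (t3eE E N h9) :=
  Subtype.ext (t9_mul E)

/-- `l1` : `U₃(j, j₃) · t₃ = W₃(j, j₃)` in `F_{N,E}`. -/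
theorem t3E_lin (h3 : 3 ∣ N) :
    h9u3 (jE E N 1 (one_dvd N)) (jE E N 3 h3) * t3E E N h3
      = h9w3 (jE E N 1 (one_dvd N)) (jE E N 3 h3) := by
  apply Subtype.ext
  have h := t3_lin9 E
  rw [← h9_coe_jE E N 3 h3, ← h9_coe_jE_one E N, ← coe_t3E E N h3] at h
  exact h

/-- `l2` : `U₃(j₃, j₉) · t₃(t³) = W₃(j₃, j₉)` in `F_{N,E}`. -/
theorem t3eE_lin (h9 : 9 ∣ N) :
    h9u3 (jE E N 3 (Dvd.dvd.trans (by norm_num) h9)) (jE E N 9 h9) * t3eE E N h9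
      = h9w3 (jE E N 3 (Dvd.dvd.trans (by norm_num) h9)) (jE E N 9 h9) := by
  apply Subtype.ext
  have h := t3e_lin9 E
  rw [← h9_coe_jE E N 3 (Dvd.dvd.trans (by norm_num) h9), ← h9_coe_jE E N 9 h9,
    ← coe_t3eE E N h9] at h
  exact h

/-! ## The degeneracy maps -/

section Deg

variable [NeZero N] (q : ℕ) [NeZero q]

theorem αE_t9E (h9 : 9 ∣ N) :
    αE E N q (t9E E N h9) = t9E E (N * q) (Dvd.dvd.mul_right h9 q) :=
  Subtype.ext (coe_heckeAlphaBar N q _)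

theorem coe_βE_t9E (h9 : 9 ∣ N) :
    ((βE E N q (t9E E N h9) : FE E (N * q)) : LaurentSeries E) = qExpand E q (t9 E) := rfl

theorem coe_βE_t9E_int (h9 : 9 ∣ N) :
    ((βE E N q (t9E E N h9) : FE E (N * q)) : LaurentSeries E)
      = coeffEmb E (H708.castQ (qExpand ℤ q (t9 ℤ))) := by
  rw [coe_βE_t9E, coeffEmb_castQ_eq, coeffMap_qExpand, coeffMap_t9]

theorem αE_jE (d : ℕ) [NeZero d] (hd : d ∣ N) :
    αE E N q (jE E N d hd) = jE E (N * q) d (Dvd.dvd.mul_right hd q) :=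
  Subtype.ext (coe_heckeAlphaBar N q _)

end Deg

end Fermat.Agent.S36.H890
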